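import Fermat.Agent.ORD.NM.Interface
import Fermat.Agent.MR.Top
import Fermat.Agent.MR.EC.Interface

/-!
# MR / Skel : THE CONTRACT of the route MR (row S39/S40/S44), architect helper52

Target: `Fermat.Agent.MR.Stmt_Core` (`MR/Top.lean`).  `MR/Skel/Core.lean` proves

  `core_of : (all the Stmt_ below) → Stmt_Core`.

Language (= ORD/NM): `p = P.p`, `N = p N'` the level of the given eigenform, `M = lcm (N', 4)`,
everything happens in `F = FF (M * p) ⊆ ℚ̄((q))`; `~` is equality modulo `p`-th powers of `F`.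
* `Setting p M`   : `W = w_p`, `n = N_p` (multiplicative `U_p`) on `F`.
* `IsCG p M T XX` : `XX ⊆ F^×` is a group of functions with divisor in `p Div`, containing the
                    `p`-th powers, stable under `G_ℚ` and `W`, with `n (n u) ~ u` (`p`-new).
* `HeckeRel`      : `N_ℓ u ~ u ^ a`.
* `TransferCG`    : `σ` acts on `E[p]` by the scalar `c` iff it acts on `XX / ~` by `c`.
* `RedTo`         : `ub ∈ k(X₀(M))` is the reduction at `v_∞` (`q`-Gauss) of `const * u`.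

Blocks: [NEW] `Stmt_NEW` (helper52), [EC] `EC.Stmt_FreyLocal/Omega/NotEis/Transfer` (helper90/43),
[ORD] `ORD.NM.Stmt_D2FF`, `Stmt_UForm` (helper49/79), [RES] `Stmt_RES` (helper51/14),
[EIS] `Stmt_EIS` (helper24), [LIFT] `Stmt_LIFT` (helper66), small: `Stmt_SettingExists`,
`Stmt_InWOfRed`, `Stmt_Model`.
-/

set_option autoImplicit false
set_option synthInstance.maxHeartbeats 400000

noncomputable section

namespace Fermat.Agent.MR.Skel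

open ModularCurve AlgebraicCurve CongruenceSubgroup
open Fermat.Agent.S24 (Qbar FF)
open Fermat.Agent.ES.Mid (GQ gal IsDiv formalN)
open Fermat.Agent.INJ.Inst (kA)
open Fermat.Agent.ORD.Dep (cst rd Cg InW ActsMu formalU)
open Fermat.Agent.S28 (Kf)

/-! ### 1. the level `M * p` -/

/-- the operators `W = w_p` and `n = N_p` on `F = FF (M * p)`. -/
structure Setting (p M : ℕ) [NeZero p] where
  /-- Atkin-Lehner -/
  W : FF (M * p) ≃ₐ[Qbar] FF (M * p)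
  isAL : BR.Inst.IsAL M p W
  invol : ∀ u, W (W u) = u
  gal_comm : ∀ (σ : GQ) (u : FF (M * p)), W (gal (M * p) σ u) = gal (M * p) σ (W u)
  /-- a primitive `p`-th root of unity -/
  ζ : Qbarˣ
  prim : IsPrimitiveRoot ζ p
  /-- the multiplicative `U_p` -/
  n : FF (M * p) → FF (M * p)
  coe_n : ∀ u, ((n u : FF (M * p)) : LaurentSeries Qbar) = formalU p ζ (u : LaurentSeries Qbar)

/-- (SKEL-SET) from `BR/F` (`AL`, `Stmt_AL_gal`, `Stmt_AL_invol`), `ORD.NM.stmt_ALPrime`,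
`ORD.NM.Stmt_UMem`. -/
def Stmt_SettingExists : Prop :=
  ∀ (p : ℕ) [NeZero p], p.Prime → ∀ (M : ℕ) [NeZero (M * p)], ¬ p ∣ M → Nonempty (Setting p M)

/-- a `p`-new Galois stable class group. -/
structure IsCG (p M : ℕ) [NeZero p] (T : Setting p M) (XX : Set (FF (M * p))) : Prop where
  isDiv : ∀ u ∈ XX, IsDiv (M * p) p u
  mul : ∀ u ∈ XX, ∀ v ∈ XX, u * v ∈ XX
  inv : ∀ u ∈ XX, u⁻¹ ∈ XX
  pow : ∀ f : FF (M * p), f ≠ 0 → f ^ p ∈ XX
  gal : ∀ (σ : GQ), ∀ u ∈ XX, gal (M * p) σ u ∈ XX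
  al : ∀ u ∈ XX, T.W u ∈ XX
  nn : ∀ u ∈ XX, ∃ g : FF (M * p), T.n (T.n u) = u * g ^ p

/-- `N_ℓ u ~ u ^ a`. -/
def HeckeRel (L p ℓ : ℕ) [NeZero ℓ] (a : ℤ) (u : FF L) : Prop :=
  ∀ ζ : Qbarˣ, IsPrimitiveRoot ζ ℓ → ∃ v g : FF L,
    (v : LaurentSeries Qbar) = formalN ℓ ζ (u : LaurentSeries Qbar) ∧ v = u ^ a * g ^ p

/-- `σ` acts on `E[p]` by the scalar `c` iff it acts on the classes of `XX` by `c`. -/
def TransferCG (P : FreyPackage) (L : ℕ) (XX : Set (FF L)) : Prop :=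
  ∀ (σ : GQ) (c : ℕ), EC.rhoE P σ = (c : ZMod P.p) • (1 : Module.End (ZMod P.p) (S13.Tors P)) ↔
    ∀ u ∈ XX, ∃ g : FF L, gal L σ u = u ^ c * g ^ P.p

/-- inertia acts on the class of `u` through the cyclotomic character mod `p`. -/
def OmegaAct (A : ValuationSubring Qbar) (L p : ℕ) (u : FF L) : Prop :=
  ∀ s ∈ A.inertiaSubgroupIn ℚ, ∀ c : ℕ, ActsMu p s c → ∃ g : FF L, gal L s u = u ^ c * g ^ p

/-- (PEU) the classes of `XX` are fixed by the `σ ∈ I` fixing `ζ_p` and `β`, `β ^ p = d₀` a UNIT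
`≡ 1` of the inertia field. -/
def PeuCG (A : ValuationSubring Qbar) (L p : ℕ) (XX : Set (FF L)) : Prop :=
  ∃ β d₀ : Qbar, β ^ p = d₀ ∧ d₀ ∈ A ∧ d₀⁻¹ ∈ A ∧ A.valuation (d₀ - 1) < 1 ∧
    (∀ σ ∈ A.inertiaSubgroupIn ℚ, σ d₀ = d₀) ∧
    ∀ σ ∈ A.inertiaSubgroupIn ℚ, ActsMu p σ 1 → σ β = β →
      ∀ u ∈ XX, ∃ g : FF L, gal L σ u = u * g ^ p

/-! ### 2. [NEW] -/

open WeierstrassCurve WeierstrassCurve.Affine WeierstrassCurve.Affine.Point in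
/-- **[NEW]** (helper52): if the eigensystem does not occur at level `N'` there is a nontrivial
`p`-new class group at level `M * p`, coming from level `N' * p`, which is `E[p]`-isotypic. -/
def Stmt_NEW : Prop :=
  ∀ (P : FreyPackage) (N' : ℕ) [NeZero N'] [NeZero P.p], P.IsConductorLevel (P.p * N') →
    GaloisRepIsIrreducible (K := AlgebraicClosure ℚ) ℚ P.freyCurve P.p →
    ∀ (f : CuspForm (Gamma0 (P.p * N')) 2) (W : WeierstrassCurve ℤ)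
      (𝔪 : Ideal (integralClosure ℤ ℂ)),
    f.IsNormalizedEigenform → W.IsIntegralModelOf P.freyCurve → 𝔪.IsMaximal →
    (P.p : integralClosure ℤ ℂ) ∈ 𝔪 →
    (∀ ℓ : ℕ, ℓ.Prime → W.IsGoodPrimeFor ℓ → ¬ ℓ ∣ P.p * N' → ℓ ≠ P.p →
      ∃ a : integralClosure ℤ ℂ, (a : ℂ) = ModularFormClass.qCoeff f ℓ ∧
        a - ((W.apOfModel ℓ : ℤ) : integralClosure ℤ ℂ) ∈ 𝔪) →
    congIdeal N' P.p (fun ℓ => W.apOfModel ℓ) (fun ℓ => W.IsGoodPrimeFor ℓ ∧ ℓ ≠ P.p) = ⊤ →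
    ∀ (M : ℕ) [NeZero M] [NeZero (M * P.p)], M = Nat.lcm N' 4 → ∀ T : Setting P.p M,
    ∃ XX : Set (FF (M * P.p)), IsCG P.p M T XX ∧
      (∀ u ∈ XX, ∀ (ℓ : ℕ) [NeZero ℓ], ℓ.Prime → W.IsGoodPrimeFor ℓ → ¬ ℓ ∣ M * P.p →
        HeckeRel (M * P.p) P.p ℓ (W.apOfModel ℓ) u) ∧
      (∀ u ∈ XX, ∃ g : FF (M * P.p), g ≠ 0 ∧
        ((u * g ^ P.p : FF (M * P.p)) : LaurentSeries Qbar) ∈ modularFunctionFieldBar (N' * P.p)) ∧
      TransferCG P (M * P.p) XX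

/-! ### 3. the residue field `k(X₀(M))` -/

/-- `ub ∈ k(X₀(M))` is the reduction at `v_∞` of a constant multiple of `u`. -/
def RedTo (A : ValuationSubring Qbar) (p M : ℕ) (u : FF (M * p)) (ub : Kf (kA A) M) : Prop :=
  ub ≠ 0 ∧ ∃ c : Qbar, c ≠ 0 ∧
    rd A (cst c * (u : LaurentSeries Qbar)) = (ub : LaurentSeries (kA A))

/-- `jb = j`. -/
def IsJ (k : Type) [Field k] (M : ℕ) (jb : Kf k M) : Prop :=
  (jb : LaurentSeries k) = S28.jd k 1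

/-- the conclusion of [RES] (helper51's #1690 (4)). -/
def ResConcl (k : Type) [Field k] (p M : ℕ) (jb bb ub : Kf k M) : Prop :=
  ∃ δ : ℤ, ∀ x : Place k (Kf k M),
    (0 ≤ x.ord jb → (p : ℤ) ∣ x.ord ub - δ * x.ord bb) ∧ (x.ord jb < 0 → (p : ℤ) ∣ x.ord ub)

/-- the divisor of `ub` is divisible by `p`. -/
def PDiv (k : Type) [Field k] (p M : ℕ) (ub : Kf k M) : Prop :=
  ∀ x : Place k (Kf k M), (p : ℤ) ∣ x.ord ub

/-- everything [SKEL] knows about `XX` when it calls [RES]. -/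
structure ResHyp (A : ValuationSubring Qbar) (p M : ℕ) [NeZero p] (T : Setting p M)
    (XX : Set (FF (M * p))) : Prop where
  cg : IsCG p M T XX
  peu : PeuCG A (M * p) p XX
  /-- (F1) -/
  inert : ∀ σ ∈ A.inertiaSubgroupIn ℚ, ∀ u ∈ XX,
    InW A (M * p) p (gal (M * p) σ u * u⁻¹) ∧ InW A (M * p) p (T.W (gal (M * p) σ u * u⁻¹))
  /-- (D'', first half) -/
  deep : ∀ y ∈ XX, InW A (M * p) p y → ∀ d : Qbar, d ≠ 0 →
    ∃ (c : Qbar) (g : FF (M * p)), c ≠ 0 ∧ g ≠ 0 ∧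
      Cg A d (cst c * (y : LaurentSeries Qbar) * (g : LaurentSeries Qbar) ^ p) 1
  /-- (D'') -/
  omega : ∀ y ∈ XX, InW A (M * p) p y → InW A (M * p) p (T.W y) → OmegaAct A (M * p) p y

/-- **[RES]** (helper51 + helper14): Picard-Lefschetz at `p`.  `IsB` is the predicate
"`bb = rd_∞ (f / f_p)`, `f = θ²`", to be fixed by the owners of [RES] and [EIS]. -/
def Stmt_RES (IsB : ∀ (A : ValuationSubring Qbar) (_p M : ℕ), Kf (kA A) M → Prop) : Prop :=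
  ∀ (p : ℕ) [NeZero p], p.Prime → 5 ≤ p → ∀ A : ValuationSubring Qbar, A.LiesOverPrime p →
  ∀ (M : ℕ) [NeZero M] [NeZero (M * p)], ¬ p ∣ M → 4 ∣ M →
  ∀ (T : Setting p M) (XX : Set (FF (M * p))), ResHyp A p M T XX →
    ∃ jb bb : Kf (kA A) M, IsJ (kA A) M jb ∧ IsB A p M bb ∧
      ∀ u ∈ XX, ∃ ub : Kf (kA A) M, RedTo A p M u ub ∧ ResConcl (kA A) p M jb bb ub

/-- **[EIS]** (helper24). -/
def Stmt_EIS (IsB : ∀ (A : ValuationSubring Qbar) (_p M : ℕ), Kf (kA A) M → Prop) : Prop :=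
  ∀ (p : ℕ) [NeZero p], p.Prime → 5 ≤ p → ∀ A : ValuationSubring Qbar, A.LiesOverPrime p →
  ∀ (M : ℕ) [NeZero M] [NeZero (M * p)], ¬ p ∣ M → 4 ∣ M →
  ∀ jb bb : Kf (kA A) M, IsJ (kA A) M jb → IsB A p M bb →
  ∀ (u : FF (M * p)) (ub : Kf (kA A) M), IsDiv (M * p) p u → RedTo A p M u ub →
    ResConcl (kA A) p M jb bb ub →
  ∀ (ℓ : ℕ) [NeZero ℓ], ℓ.Prime → ¬ ℓ ∣ M * p → ∀ a : ℤ, HeckeRel (M * p) p ℓ a u →
    ¬ (p : ℤ) ∣ a - (ℓ + 1) → PDiv (kA A) p M ub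

/-- **[LIFT]** (helper66): an eigenclass whose reduction has divisor in `p Div` and is not a
`p`-th power produces the eigensystem at level `N'`. -/
def Stmt_LIFT : Prop :=
  ∀ (p : ℕ) [NeZero p], p.Prime → 5 ≤ p → ∀ A : ValuationSubring Qbar, A.LiesOverPrime p →
  ∀ (N' : ℕ) [NeZero N'], Squarefree N' → ¬ p ∣ N' →
  ∀ (M : ℕ) [NeZero M] [NeZero (M * p)], M = Nat.lcm N' 4 →
  ∀ (a : ℕ → ℤ) (Good : ℕ → Prop), (∀ ℓ : ℕ, Good ℓ → ℓ ≠ 2 ∧ ℓ ≠ p) →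
  ∀ u : FF (M * p), (u : LaurentSeries Qbar) ∈ modularFunctionFieldBar (N' * p) →
    IsDiv (M * p) p u →
    (∀ (ℓ : ℕ) [NeZero ℓ], ℓ.Prime → ¬ ℓ ∣ N' → Good ℓ → HeckeRel (M * p) p ℓ (a ℓ) u) →
  ∀ ub : Kf (kA A) M, RedTo A p M u ub → PDiv (kA A) p M ub → (¬ ∃ g : Kf (kA A) M, ub = g ^ p) →
    congIdeal N' p a Good ≠ ⊤

/-! ### 4. small contracts -/

/-- (SKEL-IR) a class whose reduction is a `p`-th power lies in `W_∞`
(`rd : F_M ∩ O → k(X₀(M))` is onto). -/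
def Stmt_InWOfRed : Prop :=
  ∀ (p : ℕ), p.Prime → ∀ A : ValuationSubring Qbar, A.LiesOverPrime p →
  ∀ (M : ℕ) [NeZero M] [NeZero (M * p)], ¬ p ∣ M →
  ∀ (u : FF (M * p)) (ub : Kf (kA A) M), RedTo A p M u ub → (∃ g : Kf (kA A) M, ub = g ^ p) →
    InW A (M * p) p u

/-- (SKEL-MODEL) every integral model of the Frey curve is nonsingular and bad at `2`
(`v₂ (j) < 0`). -/
def Stmt_Model : Prop :=
  ∀ (P : FreyPackage) (W : WeierstrassCurve ℤ), W.IsIntegralModelOf P.freyCurve →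
    W.Δ ≠ 0 ∧ (2 : ℤ) ∣ W.Δ

/-- (SKEL-NOSC) inertia cannot act on `E[p]` through the scalar `ω` (`# E[p] = p²`, `ω ≠ 1` on `I`,
`(σ - 1) E[p] ⊆ ⟨T₀⟩`). -/
def Stmt_NoScalar : Prop :=
  ∀ (P : FreyPackage) (A : ValuationSubring Qbar), A.LiesOverPrime P.p →
    EC.LocalAt P.freyCurve P.p A →
    ¬ ∀ s ∈ A.inertiaSubgroupIn ℚ, ∀ c : ℕ, ActsMu P.p s c →
      EC.rhoE P s = (c : ZMod P.p) • (1 : Module.End (ZMod P.p) (S13.Tors P))

end Fermat.Agent.MR.Skel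

end
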