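import Fermat.Agent.MR.Skel.Interface
import Fermat.Agent.BR.Inst.LKf
import Fermat.Agent.ORD.Dep.GOApi
import Fermat.Agent.INJ.Inst.Descent

/-!
# MR / Skel (SKEL-IR): a class whose reduction is a `p`-th power lies in `W_∞`
(task 1250, helper53)
-/

set_option autoImplicit false
set_option synthInstance.maxHeartbeats 400000

noncomputable section

namespace Fermat.Agent.MR.Skel

open ModularCurve AlgebraicCurve
open Fermat.Agent.S24 (Qbar FF)
open Fermat.Agent.INJ.Inst (kA)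
open Fermat.Agent.ORD.Dep (cst rd GO InW)
open Fermat.Agent.S28 (Kf)

/-- the `q`-Gauss reduction `F_M ∩ O → k(X₀(M))` is onto. -/
theorem InWOfRed_surj (p : ℕ) (hp : p.Prime) (A : ValuationSubring Qbar) (hA : A.LiesOverPrime p)
    (M : ℕ) [NeZero M] (hpM : ¬ p ∣ M) (y : Kf (kA A) M) :
    ∃ G : FF M, GO A (G : LaurentSeries Qbar) ∧
      rd A (G : LaurentSeries Qbar) = (y : LaurentSeries (kA A)) := by
  have : Fact p.Prime := ⟨hp⟩
  obtain ⟨L, D, hG, h1, h2⟩ := INJ.Inst.exists_gauss_strong M A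
  have hL : L = S28.Kf (kA A) M := BR.Inst.stmt_LKf M p hpM A hA L D hG
  have hmem : (y : LaurentSeries (kA A)) ∈ L := by rw [hL]; exact y.2
  obtain ⟨G₀, hG₀O, hG₀⟩ := INJ.RedData.exists_rd_eq (D := D) ⟨_, hmem⟩
  obtain ⟨f, h, hh0, hfh⟩ := h2 G₀ hG₀O
  have h3 := (h1 G₀ f h hh0 hfh).2
  have hr : INJ.Inst.Gauss.IsRatio (IsLocalRing.residue A) (G₀ : LaurentSeries Qbar) f h :=
    ⟨hh0, hfh⟩
  refine ⟨G₀, ⟨f, h, hr⟩, ?_⟩
  rw [ORD.Dep.rd_eq hr]
  rw [hG₀] at h3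
  exact h3.symm

theorem stmt_InWOfRed : Stmt_InWOfRed := by
  intro p hp A hA M _ _ hpM u ub hred hpow
  obtain ⟨hub0, c, hc, hcu⟩ := hred
  obtain ⟨g, hg⟩ := hpow
  have hg0 : g ≠ 0 := by
    rintro rfl
    exact hub0 (by rw [hg, zero_pow hp.ne_zero])
  obtain ⟨G₀, hGO, hGrd⟩ := InWOfRed_surj p hp A hA M hpM g⁻¹
  have hrd0 : rd A (G₀ : LaurentSeries Qbar) ≠ 0 := by
    rw [hGrd]
    exact fun h => inv_ne_zero hg0 (Subtype.ext h)
  have hG₀0 : G₀ ≠ 0 := by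
    rintro rfl
    exact hrd0 ORD.Dep.rd_zero
  let G : FF (M * p) :=
    ⟨(G₀ : LaurentSeries Qbar), INJ.Inst.Descent.bar_le (dvd_mul_right M p) G₀.2⟩
  have hG0 : G ≠ 0 := by
    intro h
    have h' : (G : LaurentSeries Qbar) = ((0 : FF (M * p)) : LaurentSeries Qbar) :=
      congrArg Subtype.val h
    exact hG₀0 (Subtype.ext h')
  refine ⟨c, G, hc, hG0, ?_⟩
  have hub0' : (ub : LaurentSeries (kA A)) ≠ 0 := fun h => hub0 (Subtype.ext h)
  have hcuGO : GO A (cst c * (u : LaurentSeries Qbar)) :=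
    ORD.Dep.GO_of_rd_ne_zero (by rw [hcu]; exact hub0')
  show rd A (cst c * (u : LaurentSeries Qbar) * (G₀ : LaurentSeries Qbar) ^ p) = 1
  rw [ORD.Dep.rd_mul hcuGO (hGO.pow p), ORD.Dep.rd_pow hGO, hcu, hGrd, hg]
  have : (g ^ p * g⁻¹ ^ p : Kf (kA A) M) = 1 := by
    rw [← mul_pow, mul_inv_cancel₀ hg0, one_pow]
  exact congrArg Subtype.val this

end Fermat.Agent.MR.Skel

end
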