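import Fermat.Agent.MR.Skel.NewInterface

/-!
# MR / Skel : (NEW-D) Atkin-Lehner preserves the eigenclasses (task 1434)

`stmt_ALEig : VS.Stmt_EigDict → Stmt_ALEig`.
-/

set_option autoImplicit false
set_option synthInstance.maxHeartbeats 400000

namespace Fermat.Agent.MR.Skel

open ModularCurve AlgebraicCurve CongruenceSubgroup CuspForm
open Fermat.Agent.S24 (Qbar FF)
open Fermat.Agent.ES.Mid (GQ gal IsDiv formalN Kum IsPE tau)

/-- (NEW-D) -/
theorem stmt_ALEig (hD : VS.Stmt_EigDict) : Stmt_ALEig := by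
  intro N _ p _ hp hpN hp2 a Good w hw u hu
  -- the Kummer character of `u`
  obtain ⟨χ, hPE, hK⟩ :=
    ES.Mid.A.kumOfDiv ES.Mid.VAL.valMult ES.Mid.ROOT.rootUHP N p u hu.1
  have hE : VS.IsEigChar N p a Good χ := (hD N p hp a Good u χ hK hPE).1 hu
  -- Atkin-Lehner data
  obtain ⟨X⟩ := BR.F.W3.alExists BR.F.W1.alMat BR.F.W1.alConj BR.F.W2.alAlg N p hp hpN hp2
  have hX : BR.F.IsAL N p X.w := BR.F.W3.al_j BR.F.W2.alAlg N p X
  have hwX : w = X.w := BR.F.W3.al_unique N p hp hpN hp2 w X.w hw hX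
  rw [hwX]
  have hK' : Kum N p (X.w u) (X.chr χ) := BR.F.W4.al_kum N p X p u χ hK
  have hPE' : IsPE (X.chr χ) := BR.F.XB.isPE_chr BR.F.W1.al_trace X hPE
  refine (hD N p hp a Good (X.w u) (X.chr χ) hK' hPE').2 ?_
  intro ℓ hℓN hG
  rw [← BR.F.W5.al_tau (BR.F.W5.alCoset BR.F.W1.alConj) N p X ℓ hℓN (ZMod p) χ, hE ℓ hℓN hG,
    map_zsmul]

end Fermat.Agent.MR.Skel
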