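import Fermat.Agent.MR.Skel.NewInterface
import Fermat.Agent.S22

/-!
# MR / Skel, package NEW-A1 (helper91): lying over for `𝕋^S ⊆ 𝕋`.
-/

set_option autoImplicit false
set_option synthInstance.maxHeartbeats 400000

noncomputable section

namespace Fermat.Agent.MR.Skel

open CuspForm

/-- the inclusion `𝕋^S ⊆ 𝕋`. -/
def CongS_incl (N : ℕ) [NeZero N] (S : Set ℕ) : heckeAlgebra N 2 S →+* heckeAlgebra N 2 ∅ :=
  (Subalgebra.inclusion (heckeAlgebra_mono (Set.empty_subset S))).toRingHom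

theorem CongS_incl_coe (N : ℕ) [NeZero N] (S : Set ℕ) (x : heckeAlgebra N 2 S) :
    ((CongS_incl N S x : heckeAlgebra N 2 ∅) :
      Module.End ℂ (CuspForm (CongruenceSubgroup.Gamma0 N) 2)) = x := by
  rw [CongS_incl]
  exact Subalgebra.coe_inclusion _ x

theorem CongS_incl_injective (N : ℕ) [NeZero N] (S : Set ℕ) :
    Function.Injective (CongS_incl N S) := by
  intro x y h
  apply Subtype.ext
  rw [← CongS_incl_coe N S x, ← CongS_incl_coe N S y, h]

theorem CongS_incl_isIntegral (N : ℕ) [NeZero N] (S : Set ℕ) : (CongS_incl N S).IsIntegral := by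
  intro x
  have hfin : Module.Finite ℤ (heckeAlgebra N 2 ∅) := Fermat.Agent.S22.result N 2 ∅
  obtain ⟨P, hP, hPx⟩ : IsIntegral ℤ x := Algebra.IsIntegral.isIntegral x
  refine ⟨P.map (Int.castRingHom _), hP.map _, ?_⟩
  rw [Polynomial.eval₂_map, ← hPx]
  congr 1

theorem CongS_incl_T (N : ℕ) [NeZero N] (S : Set ℕ) {ℓ : ℕ} (hℓ : ℓ.Prime) (hℓN : ¬ ℓ ∣ N)
    (hℓS : ℓ ∉ S) :
    CongS_incl N S (heckeAlgebra.T hℓ hℓN hℓS) = heckeAlgebra.T hℓ hℓN (Set.notMem_empty ℓ) := by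
  apply Subtype.ext
  rw [CongS_incl_coe, heckeAlgebra.coe_T, heckeAlgebra.coe_T]

/-- (NEW-A1) lying over for `𝕋^S ⊆ 𝕋`. -/
theorem stmt_CongS : Stmt_CongS := by
  intro N _ p a Good S hS htop
  by_contra hne
  obtain ⟨𝔫, h𝔫, hle⟩ := Ideal.exists_le_maximal _ hne
  let _ : Algebra (heckeAlgebra N 2 S) (heckeAlgebra N 2 ∅) := (CongS_incl N S).toAlgebra
  have hmap : algebraMap (heckeAlgebra N 2 S) (heckeAlgebra N 2 ∅) = CongS_incl N S :=
    RingHom.algebraMap_toAlgebra _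
  have hint : Algebra.IsIntegral (heckeAlgebra N 2 S) (heckeAlgebra N 2 ∅) :=
    ⟨fun x => by
      have := CongS_incl_isIntegral N S x
      rw [← hmap] at this
      exact this⟩
  have hker : RingHom.ker (algebraMap (heckeAlgebra N 2 S) (heckeAlgebra N 2 ∅)) ≤ 𝔫 := by
    rw [hmap, (RingHom.injective_iff_ker_eq_bot _).1 (CongS_incl_injective N S)]
    exact bot_le
  obtain ⟨Q, hQ, hQ𝔫⟩ := Ideal.exists_ideal_over_maximal_of_isIntegral 𝔫 hker
  rw [hmap] at hQ𝔫
  have hmem : ∀ x ∈ congIdealS N p a S, CongS_incl N S x ∈ Q := by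
    intro x hx
    have : x ∈ Q.comap (CongS_incl N S) := by
      rw [hQ𝔫]
      exact hle hx
    exact Ideal.mem_comap.1 this
  have hQle : congIdeal N p a Good ≤ Q := by
    rw [congIdeal, Ideal.span_le]
    rintro x (hx | ⟨ℓ, hℓ, hℓN, hg, rfl⟩)
    · rw [Set.mem_singleton_iff] at hx
      rw [hx]
      have := hmem (p : heckeAlgebra N 2 S) (Ideal.subset_span (Or.inl rfl))
      rwa [map_natCast] at this
    · have hℓS := hS ℓ hℓ hℓN hg
      have := hmem _ (Ideal.subset_span (Or.inr ⟨ℓ, hℓ, hℓN, hℓS, rfl⟩))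
      rwa [map_sub, map_intCast, CongS_incl_T] at this
  rw [htop, top_le_iff] at hQle
  exact hQ.ne_top hQle

end Fermat.Agent.MR.Skel

end
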