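import Fermat.Agent.MR.Skel.Interface
import Fermat.Agent.ORD.NM.G1
import Fermat.Agent.S54.Frob95

/-!
# MR / Skel : the skeleton `core_of : (contracts) → MR.Stmt_Core` (helper52)
-/

set_option autoImplicit false
set_option synthInstance.maxHeartbeats 400000
set_option linter.unusedSectionVars false

noncomputable section

namespace Fermat.Agent.MR.Skel

open ModularCurve AlgebraicCurve CongruenceSubgroup
open Fermat.Agent.S24 (Qbar FF)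
open Fermat.Agent.ES.Mid (GQ gal IsDiv formalN coe_gal)
open Fermat.Agent.INJ.Inst (kA)
open Fermat.Agent.ORD.Dep
open Fermat.Agent.S28 (Kf)

/-- (F1) `(σ - 1) u ∈ W_∞` for `σ` in the inertia group. -/
theorem Core_inW_inertia {A : ValuationSubring Qbar} {L : ℕ} [NeZero L] (p : ℕ) {σ : GQ}
    (hσ : σ ∈ A.inertiaSubgroupIn ℚ) {u : FF L} (hu : u ≠ 0) :
    InW A L p (gal L σ u * u⁻¹) := by
  obtain ⟨c, hc, hGO, hrd⟩ := exists_norm A L hu
  have hσc : σ c ≠ 0 := (map_ne_zero σ).2 hc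
  have hu' : (u : LaurentSeries Qbar) ≠ 0 := fun h => hu (Subtype.ext h)
  have hcc : cst c ≠ 0 := (map_ne_zero _).2 hc
  refine ⟨σ c * c⁻¹, 1, mul_ne_zero hσc (inv_ne_zero hc), one_ne_zero, ?_⟩
  have e : cst (σ c * c⁻¹) * ((gal L σ u * u⁻¹ : FF L) : LaurentSeries Qbar)
        * ((1 : FF L) : LaurentSeries Qbar) ^ p
      = coeffMap (σ : Qbar →+* Qbar) (cst c * (u : LaurentSeries Qbar))
        / (cst c * (u : LaurentSeries Qbar)) := by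
    rw [map_mul, coeffMap_algebraMap, IntermediateField.coe_mul, IntermediateField.coe_inv,
      coe_gal, IntermediateField.coe_one, one_pow, mul_one, cst_mul]
    have h1 : ((σ : Qbar →+* Qbar) c) = σ c := rfl
    have h2 : cst c⁻¹ = (cst c)⁻¹ := map_inv₀ _ c
    rw [h1, h2]
    field_simp
  rw [e, rd_div (hGO.coeffMap hσ) hGO hrd, rd_coeffMap hσ hGO, div_self hrd]

/-- `W_∞` only depends on the class modulo `p`-th powers. -/
theorem Core_inW_of_mul_pow {A : ValuationSubring Qbar} {L p : ℕ} {u g : FF L} (hg : g ≠ 0)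
    (h : InW A L p (u * g ^ p)) : InW A L p u := by
  obtain ⟨c, g', hc, hg', e⟩ := h
  refine ⟨c, g * g', hc, mul_ne_zero hg hg', ?_⟩
  rw [← e, IntermediateField.coe_mul, IntermediateField.coe_mul, IntermediateField.coe_pow, mul_pow]
  ring_nf

section G1

variable {p : ℕ} [NeZero p] {A : ValuationSubring Qbar} {M : ℕ} [NeZero M] [NeZero (M * p)]
  {T : Setting p M} {XX : Set (FF (M * p))}

/-- (D'', first half). -/
theorem Core_deep (hUF : ORD.NM.Stmt_UForm) (hp : p.Prime) (hA : A.LiesOverPrime p)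
    (h : IsCG p M T XX) {y : FF (M * p)} (hy : y ∈ XX) (h1 : InW A (M * p) p y) {d : Qbar}
    (hd : d ≠ 0) :
    ∃ (c : Qbar) (g : FF (M * p)), c ≠ 0 ∧ g ≠ 0 ∧
      Cg A d (cst c * (y : LaurentSeries Qbar) * (g : LaurentSeries Qbar) ^ p) 1 :=
  ORD.NM.G1_deep hUF hp hA T.prim T.coe_n (h.isDiv y hy).1 h1 (h.nn y hy) hd

/-- (D''). -/
theorem Core_omega (hD2 : ORD.NM.Stmt_D2FF) (hUF : ORD.NM.Stmt_UForm) (hp : p.Prime) (hp2 : p ≠ 2)
    (hA : A.LiesOverPrime p) (hpM : ¬ p ∣ M) (h : IsCG p M T XX) {y : FF (M * p)} (hy : y ∈ XX)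
    (h1 : InW A (M * p) p y) (h2 : InW A (M * p) p (T.W y)) : OmegaAct A (M * p) p y := by
  intro s hs c hc
  obtain ⟨w, hw⟩ : ∃ w : Qbar, w ^ (p - 1) = -(p : Qbar) :=
    IsAlgClosed.exists_pow_nat_eq _ (Nat.sub_pos_of_lt hp.one_lt)
  have hSw : Sm A w := (stmt_UnifW p hp A hA w hw).1
  have hd : w ^ p * w ≠ 0 := mul_ne_zero (pow_ne_zero _ hSw.1) hSw.1
  exact hD2 p hp hp2 A hA M hpM T.W T.isAL w w hw hSw y (h.isDiv y hy)
    (Core_deep hUF hp hA h hy h1 hd) (Core_deep hUF hp hA h (h.al y hy) h2 hd) s hs c hc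

end G1

/-- (PEU) for the class group. -/
theorem Core_peu (P : FreyPackage) {A : ValuationSubring Qbar} {L : ℕ} {XX : Set (FF L)}
    (hloc : EC.LocalAt P.freyCurve P.p A) (hT : TransferCG P L XX) : PeuCG A L P.p XX := by
  obtain ⟨T₀, -, -, -, -, β, d₀, h1, h2, h3, h4, h5, h6⟩ := hloc
  refine ⟨β, d₀, h1, h2, h3, h4, h5, fun σ hσ hcyc hβ u hu => ?_⟩
  have hρ : EC.rhoE P σ = ((1 : ℕ) : ZMod P.p) • (1 : Module.End (ZMod P.p) (S13.Tors P)) := by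
    rw [Nat.cast_one, one_smul]
    apply LinearMap.ext
    intro x
    rw [EC.rhoE_apply, Module.End.one_apply]
    apply Subtype.ext
    have hx : P.p • x.1 = 0 := by
      have := x.2
      rw [Submodule.mem_torsionBy_iff] at this
      exact_mod_cast this
    exact h6 σ hσ (fun ζ hζ => hcyc ζ hζ) hβ x.1 hx
  obtain ⟨g, hg⟩ := (hT σ 1).1 hρ u hu
  exact ⟨g, by rw [hg, pow_one]⟩

open WeierstrassCurve WeierstrassCurve.Affine WeierstrassCurve.Affine.Point in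
/-- **The skeleton of MR.** -/
theorem core_of (IsB : ∀ (A : ValuationSubring Qbar) (_p M : ℕ), Kf (kA A) M → Prop)
    (hNEW : Stmt_NEW) (hSet : Stmt_SettingExists) (hFL : EC.Stmt_FreyLocal)
    (hNE : EC.Stmt_NotEis) (hNS : Stmt_NoScalar) (hD2 : ORD.NM.Stmt_D2FF)
    (hUF : ORD.NM.Stmt_UForm) (hRES : Stmt_RES IsB) (hEIS : Stmt_EIS IsB) (hLIFT : Stmt_LIFT)
    (hIR : Stmt_InWOfRed) (hMod : Stmt_Model) : Stmt_Core := by
  intro P N' _ hcond hirr f W 𝔪 hf hW hmax hp𝔪 hc htop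
  -- numerology
  have hp : P.p.Prime := P.pp
  have hp5 : 5 ≤ P.p := P.hp5
  have hp2 : P.p ≠ 2 := by omega
  have : NeZero P.p := ⟨P.hp0⟩
  have hpabc : (P.p : ℤ) ∣ P.a * P.b * P.c := hcond.p_dvd_abc (Dvd.intro _ rfl)
  have hN'0 : N' ≠ 0 := NeZero.ne N'
  have hpN' : ¬ P.p ∣ N' := by
    rintro ⟨k, rfl⟩
    exact hcond.sq_not_dvd hp ⟨k, by ring⟩
  have hsq : Squarefree N' := hcond.squarefree.squarefree_of_dvd (Dvd.intro_left _ rfl)
  obtain ⟨M, hM⟩ : ∃ M : ℕ, M = Nat.lcm N' 4 := ⟨_, rfl⟩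
  have hM0 : M ≠ 0 := by rw [hM]; exact Nat.lcm_ne_zero hN'0 (by norm_num)
  have : NeZero M := ⟨hM0⟩
  have : NeZero (M * P.p) := ⟨mul_ne_zero hM0 P.hp0⟩
  have h4M : 4 ∣ M := by rw [hM]; exact Nat.dvd_lcm_right _ _
  have hpM : ¬ P.p ∣ M := by
    intro h
    rw [hM] at h
    have h1 : P.p ∣ N' * 4 := h.trans (Nat.lcm_dvd_mul _ _)
    rcases (Nat.Prime.dvd_mul hp).1 h1 with h2 | h2
    · exact hpN' h2
    · have := Nat.le_of_dvd (by norm_num) h2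
      omega
  obtain ⟨hΔ0, hΔ2⟩ := hMod P W hW
  -- primes dividing `M * p`
  have hprime : ∀ ℓ : ℕ, ℓ.Prime → ¬ ℓ ∣ N' → ℓ ≠ 2 → ℓ ≠ P.p → ¬ ℓ ∣ M * P.p := by
    intro ℓ hℓ h1 h2 h3 h
    rcases (Nat.Prime.dvd_mul hℓ).1 h with h4 | h4
    · rw [hM] at h4
      have h5 : ℓ ∣ N' * 4 := h4.trans (Nat.lcm_dvd_mul _ _)
      rcases (Nat.Prime.dvd_mul hℓ).1 h5 with h6 | h6
      · exact h1 h6
      · have h7 : ℓ ∣ 2 ^ 2 := by norm_num; exact h6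
        exact h2 ((Nat.prime_dvd_prime_iff_eq hℓ Nat.prime_two).1 (hℓ.dvd_of_dvd_pow h7))
    · exact h3 ((Nat.prime_dvd_prime_iff_eq hℓ hp).1 h4)
  -- the data
  obtain ⟨A, hA⟩ := Fermat.Agent.S54.Frob95.exists_valuationSubring P.p hp
  have hA : A.LiesOverPrime P.p := hA
  obtain ⟨T⟩ := hSet P.p hp M hpM
  obtain ⟨XX, hCG, hHecke, hFrom, hTr⟩ :=
    hNEW P N' hcond hirr f W 𝔪 hf hW hmax hp𝔪 hc htop M hM T
  have hloc := hFL P hpabc A hA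
  -- the hypotheses of [RES]
  have hRH : ResHyp A P.p M T XX :=
    { cg := hCG
      peu := Core_peu P hloc hTr
      inert := fun σ hσ u hu => by
        have hu0 := (hCG.isDiv u hu).1
        refine ⟨Core_inW_inertia P.p hσ hu0, ?_⟩
        rw [map_mul, map_inv₀, T.gal_comm]
        exact Core_inW_inertia P.p hσ (fun h => hu0 ((map_eq_zero T.W).1 h))
      deep := fun y hy h1 d hd => Core_deep hUF hp hA hCG hy h1 hd
      omega := fun y hy h1 h2 => Core_omega hD2 hUF hp hp2 hA hpM hCG hy h1 h2 }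
  obtain ⟨jb, bb, hjb, hbb, hres⟩ := hRES P.p hp hp5 A hA M hpM h4M T XX hRH
  -- a non Eisenstein prime
  obtain ⟨ℓ₀, hℓ₀, hℓ₀S, hℓ₀a⟩ :=
    hNE P W hW hpabc hirr (W.Δ.natAbs * (M * P.p)).primeFactors
  have hprod : W.Δ.natAbs * (M * P.p) ≠ 0 :=
    mul_ne_zero (Int.natAbs_ne_zero.2 hΔ0) (NeZero.ne _)
  have hℓ₀d : ¬ ℓ₀ ∣ W.Δ.natAbs * (M * P.p) := fun h =>
    hℓ₀S (Nat.mem_primeFactors.2 ⟨hℓ₀, h, hprod⟩)
  have hℓ₀g : W.IsGoodPrimeFor ℓ₀ := fun h =>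
    hℓ₀d (Dvd.dvd.mul_right (Int.natCast_dvd.1 h) _)
  have hℓ₀M : ¬ ℓ₀ ∣ M * P.p := fun h => hℓ₀d (Dvd.dvd.mul_left h _)
  have : NeZero ℓ₀ := ⟨hℓ₀.ne_zero⟩
  have hℓ₀a' : ¬ (P.p : ℤ) ∣ W.apOfModel ℓ₀ - ((ℓ₀ : ℤ) + 1) := by
    intro h
    apply hℓ₀a
    have := (ZMod.intCast_eq_intCast_iff_dvd_sub ((ℓ₀ : ℤ) + 1) (W.apOfModel ℓ₀) P.p).2 h
    rw [← this]
    push_cast
    rfl
  -- every class lies in `W_∞`
  have hall : ∀ u ∈ XX, InW A (M * P.p) P.p u := by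
    intro u hu
    obtain ⟨g, hg, hmem⟩ := hFrom u hu
    have hu' : u * g ^ P.p ∈ XX := hCG.mul u hu _ (hCG.pow g hg)
    refine Core_inW_of_mul_pow hg ?_
    obtain ⟨ub, hred, hconcl⟩ := hres _ hu'
    have hdiv : PDiv (kA A) P.p M ub :=
      hEIS P.p hp hp5 A hA M hpM h4M jb bb hjb hbb _ ub (hCG.isDiv _ hu') hred hconcl ℓ₀ hℓ₀ hℓ₀M
        (W.apOfModel ℓ₀) (hHecke _ hu' ℓ₀ hℓ₀ hℓ₀g hℓ₀M) hℓ₀a'
    by_contra hnot
    have hnp : ¬ ∃ g : Kf (kA A) M, ub = g ^ P.p := fun h =>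
      hnot (hIR P.p hp A hA M hpM _ ub hred h)
    refine hLIFT P.p hp hp5 A hA N' hsq hpN' M hM (fun ℓ => W.apOfModel ℓ)
      (fun ℓ => W.IsGoodPrimeFor ℓ ∧ ℓ ≠ P.p) ?_ _ hmem (hCG.isDiv _ hu') ?_ ub hred hdiv hnp htop
    · rintro ℓ ⟨h1, h2⟩
      refine ⟨?_, h2⟩
      rintro rfl
      exact h1 (by exact_mod_cast hΔ2)
    · intro ℓ _ hℓ hℓN' hgood
      refine hHecke _ hu' ℓ hℓ hgood.1 (hprime ℓ hℓ hℓN' ?_ hgood.2)
      rintro rfl
      exact hgood.1 (by exact_mod_cast hΔ2)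
  -- inertia acts through the scalar `ω`
  refine hNS P A hA hloc fun s hs c hcs => (hTr s c).2 fun u hu => ?_
  exact Core_omega hD2 hUF hp hp2 hA hpM hCG hu (hall u hu) (hall _ (hCG.al u hu)) s hs c hcs

end Fermat.Agent.MR.Skel

end
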