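import Fermat.Agent.MR.Skel.NewInterface
import Fermat.Agent.INJ.Inst.DescentDeg

/-!
# MR / Skel / Index (NEW-F4): `[F_{lcm(N',4) p} : F_{p N'}]` is `2` or `6`
-/

set_option autoImplicit false
set_option synthInstance.maxHeartbeats 400000

noncomputable section

namespace Fermat.Agent.MR.Skel

open ModularCurve AlgebraicCurve CongruenceSubgroup CuspForm
open Fermat.Agent.S24 (Qbar FF)

/-- the index is `2` or `6`. -/
theorem Index_two_or_six (p N' : ℕ) (hp : p.Prime) (hp5 : 5 ≤ p) (hsq : Squarefree N') :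
    IntermediateField.relfinrank (modularFunctionFieldBar (p * N'))
      (modularFunctionFieldBar (Nat.lcm N' 4 * p)) = 2 ∨
    IntermediateField.relfinrank (modularFunctionFieldBar (p * N'))
      (modularFunctionFieldBar (Nat.lcm N' 4 * p)) = 6 := by
  have hN0 : N' ≠ 0 := hsq.ne_zero
  have hpN0 : p * N' ≠ 0 := mul_ne_zero hp.ne_zero hN0
  have : NeZero (p * N') := ⟨hpN0⟩
  have hL0 : Nat.lcm N' 4 * p ≠ 0 :=
    mul_ne_zero (Nat.lcm_ne_zero hN0 (by norm_num)) hp.ne_zero
  have : NeZero (Nat.lcm N' 4 * p) := ⟨hL0⟩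
  have hdvd : p * N' ∣ Nat.lcm N' 4 * p := by
    rw [mul_comm]
    exact Nat.mul_dvd_mul_right (Nat.dvd_lcm_left N' 4) p
  have h := Fermat.Agent.INJ.Inst.Descent.psi_mul_relfinrank hdvd
  have hpos := Fermat.Agent.INJ.Inst.Descent.psi_pos (p * N')
  have h2p : ¬ 2 ∣ p := by
    intro h2
    have := (Nat.prime_dvd_prime_iff_eq Nat.prime_two hp).1 h2
    omega
  by_cases h2 : 2 ∣ N'
  · left
    obtain ⟨m, rfl⟩ := h2
    have hm : ¬ 2 ∣ m := by
      intro hm
      have h4 : 2 * 2 ∣ 2 * m := Nat.mul_dvd_mul_left 2 hm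
      have := hsq 2 h4
      simp at this
    have hl : Nat.lcm (2 * m) 4 = 2 * (2 * m) := by
      have h4 : (4 : ℕ) = 2 * 2 := rfl
      rw [h4, Nat.lcm_mul_left,
        Nat.Coprime.lcm_eq_mul ((Nat.Prime.coprime_iff_not_dvd Nat.prime_two).2 hm).symm]
      ring
    have hl2 : Nat.lcm (2 * m) 4 * p = 2 * (p * (2 * m)) := by rw [hl]; ring
    apply Nat.eq_of_mul_eq_mul_left hpos
    rw [h, hl2, Fermat.Agent.S20.dedekindPsi_prime_mul_of_dvd Nat.prime_two hpN0
      (Dvd.dvd.mul_left (Dvd.intro m rfl) p), mul_comm]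
  · right
    have hl : Nat.lcm N' 4 = 4 * N' := by
      have hc : Nat.Coprime N' 4 := by
        have h4 : (4 : ℕ) = 2 ^ 2 := rfl
        rw [h4]
        exact Nat.Coprime.pow_right 2 ((Nat.Prime.coprime_iff_not_dvd Nat.prime_two).2 h2).symm
      rw [hc.lcm_eq_mul, mul_comm]
    have hl2 : Nat.lcm N' 4 * p = 2 * (2 * (p * N')) := by rw [hl]; ring
    have h2pN : ¬ 2 ∣ p * N' := by
      intro hh
      rcases (Nat.Prime.dvd_mul Nat.prime_two).1 hh with hh | hh
      · exact h2p hh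
      · exact h2 hh
    apply Nat.eq_of_mul_eq_mul_left hpos
    rw [h, hl2, Fermat.Agent.S20.dedekindPsi_prime_mul_of_dvd Nat.prime_two
      (mul_ne_zero two_ne_zero hpN0) (Dvd.intro _ rfl),
      Fermat.Agent.S20.dedekindPsi_prime_mul_of_not_dvd Nat.prime_two hpN0 h2pN]
    ring

/-- (NEW-F4) the index is `2` or `6`. -/
theorem stmt_Index : Stmt_Index := by
  intro p N' hp hp5 hsq _ hdvd
  rcases Index_two_or_six p N' hp hp5 hsq with h | h
  · rw [h] at hdvd
    have := Nat.le_of_dvd (by norm_num) hdvd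
    omega
  · rw [h] at hdvd
    have h1 : p ∣ 2 * 3 := hdvd
    rcases (Nat.Prime.dvd_mul hp).1 h1 with h2 | h2
    · have := Nat.le_of_dvd (by norm_num) h2
      omega
    · have := Nat.le_of_dvd (by norm_num) h2
      omega

end Fermat.Agent.MR.Skel

end
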