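import Fermat.Agent.MR.Skel.NewInterface
import Fermat.Agent.SMO.Level

/-!
# MR / Skel, (NEW-A2) : a Hecke operator of level `N` killing the forms of level `N'`, congruent to
`1` modulo `(p, T_ℓ - a ℓ)` (`Stmt_KillX`)
-/

set_option autoImplicit false
set_option synthInstance.maxHeartbeats 400000
set_option linter.unusedSectionVars false

noncomputable section

namespace Fermat.Agent.MR.Skel

open CongruenceSubgroup CuspForm

section

variable {N N' : ℕ} [NeZero N] [NeZero N'] (h : N' ∣ N) {S : Set ℕ}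

/-- `x` (level `N`) restricts to `x'` (level `N'`). -/
def KillX_Rel (x : Module.End ℂ (CuspForm (Gamma0 N) 2))
    (x' : Module.End ℂ (CuspForm (Gamma0 N') 2)) : Prop :=
  ∀ F, x (SMO.levelIncl h 2 F) = SMO.levelIncl h 2 (x' F)

variable {h}

theorem KillX_Rel.add {x y : Module.End ℂ (CuspForm (Gamma0 N) 2)}
    {x' y' : Module.End ℂ (CuspForm (Gamma0 N') 2)} (hx : KillX_Rel h x x')
    (hy : KillX_Rel h y y') : KillX_Rel h (x + y) (x' + y') := fun F => by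
  rw [LinearMap.add_apply, LinearMap.add_apply, hx F, hy F, map_add]

theorem KillX_Rel.sub {x y : Module.End ℂ (CuspForm (Gamma0 N) 2)}
    {x' y' : Module.End ℂ (CuspForm (Gamma0 N') 2)} (hx : KillX_Rel h x x')
    (hy : KillX_Rel h y y') : KillX_Rel h (x - y) (x' - y') := fun F => by
  rw [LinearMap.sub_apply, LinearMap.sub_apply, hx F, hy F, map_sub]

theorem KillX_Rel.mul {x y : Module.End ℂ (CuspForm (Gamma0 N) 2)}
    {x' y' : Module.End ℂ (CuspForm (Gamma0 N') 2)} (hx : KillX_Rel h x x')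
    (hy : KillX_Rel h y y') : KillX_Rel h (x * y) (x' * y') := fun F => by
  rw [Module.End.mul_apply, Module.End.mul_apply, hy F, hx]

theorem KillX_Rel.zero : KillX_Rel h 0 0 := fun F => by
  rw [LinearMap.zero_apply, LinearMap.zero_apply, map_zero]

theorem KillX_Rel.int (r : ℤ) : KillX_Rel h (r : Module.End ℂ (CuspForm (Gamma0 N) 2))
    (r : Module.End ℂ (CuspForm (Gamma0 N') 2)) := fun F => by
  rw [Module.End.intCast_apply, Module.End.intCast_apply, map_zsmul]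

theorem KillX_Rel.nat (r : ℕ) : KillX_Rel h (r : Module.End ℂ (CuspForm (Gamma0 N) 2))
    (r : Module.End ℂ (CuspForm (Gamma0 N') 2)) := fun F => by
  rw [Module.End.natCast_apply, Module.End.natCast_apply, map_nsmul]

theorem KillX_Rel.T {ℓ : ℕ} (hℓ : ℓ.Prime) (hℓN : ¬ ℓ ∣ N) (hℓN' : ¬ ℓ ∣ N') :
    KillX_Rel h (heckeTLin 2 hℓ hℓN) (heckeTLin 2 hℓ hℓN') :=
  fun F => SMO.heckeTLin_levelIncl h 2 hℓ hℓN hℓN' F

variable (h)

/-- (3) surjectivity of the restriction. -/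
theorem KillX_surj (hS : ∀ q : ℕ, q.Prime → q ∣ N → q ∈ S)
    (x' : Module.End ℂ (CuspForm (Gamma0 N') 2)) (hx' : x' ∈ heckeAlgebra N' 2 S) :
    ∃ x ∈ heckeAlgebra N 2 S, KillX_Rel h x x' := by
  unfold heckeAlgebra at hx'
  induction hx' using Algebra.adjoin_induction with
  | mem T hT =>
    rcases hT with ⟨ℓ, hℓ, hℓN', hℓS, rfl⟩ | ⟨q, hqN', hq, hqS, rfl⟩
    · have hℓN : ¬ ℓ ∣ N := fun hd => hℓS (hS ℓ hℓ hd)
      exact ⟨_, heckeTLin_mem_heckeAlgebra hℓ hℓN hℓS, KillX_Rel.T hℓ hℓN hℓN'⟩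
    · exact absurd (hS q hq (hqN'.trans h)) hqS
  | algebraMap r =>
    refine ⟨algebraMap ℤ _ r, Subalgebra.algebraMap_mem _ r, ?_⟩
    rw [eq_intCast, eq_intCast]
    exact KillX_Rel.int r
  | add x' y' _ _ hx hy =>
    obtain ⟨x, hxm, hx⟩ := hx
    obtain ⟨y, hym, hy⟩ := hy
    exact ⟨x + y, Subalgebra.add_mem _ hxm hym, hx.add hy⟩
  | mul x' y' _ _ hx hy =>
    obtain ⟨x, hxm, hx⟩ := hx
    obtain ⟨y, hym, hy⟩ := hy
    exact ⟨x * y, Subalgebra.mul_mem _ hxm hym, hx.mul hy⟩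

/-- (4) the congruence ideal of level `N` maps onto the congruence ideal of level `N'`. -/
theorem KillX_ideal (hS : ∀ q : ℕ, q.Prime → q ∣ N → q ∈ S) (p : ℕ) (a : ℕ → ℤ)
    (y' : heckeAlgebra N' 2 S) (hy' : y' ∈ congIdealS N' p a S) :
    ∃ y ∈ congIdealS N p a S, KillX_Rel h y.1 y'.1 := by
  unfold congIdealS at hy'
  induction hy' using Submodule.span_induction with
  | mem y' hy' =>
    rcases hy' with rfl | ⟨ℓ, hℓ, hℓN', hℓS, rfl⟩
    · refine ⟨(p : heckeAlgebra N 2 S), Ideal.subset_span (Or.inl rfl), ?_⟩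
      exact KillX_Rel.nat p
    · have hℓN : ¬ ℓ ∣ N := fun hd => hℓS (hS ℓ hℓ hd)
      refine ⟨heckeAlgebra.T hℓ hℓN hℓS - ((a ℓ : ℤ) : heckeAlgebra N 2 S),
        Ideal.subset_span (Or.inr ⟨ℓ, hℓ, hℓN, hℓS, rfl⟩), ?_⟩
      exact (KillX_Rel.T hℓ hℓN hℓN').sub (KillX_Rel.int (a ℓ))
  | zero => exact ⟨0, Submodule.zero_mem _, KillX_Rel.zero⟩
  | add x' y' _ _ hx hy =>
    obtain ⟨x, hxm, hx⟩ := hx
    obtain ⟨y, hym, hy⟩ := hy
    exact ⟨x + y, Submodule.add_mem _ hxm hym, hx.add hy⟩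
  | smul c' y' _ hy =>
    obtain ⟨y, hym, hy⟩ := hy
    obtain ⟨c, hcm, hc⟩ := KillX_surj h hS c'.1 c'.2
    exact ⟨⟨c, hcm⟩ * y, Ideal.mul_mem_left _ _ hym, hc.mul hy⟩

end

theorem stmt_KillX : Stmt_KillX := by
  intro N N' _ _ h p a S hS htop
  obtain ⟨y, hy, hrel⟩ := KillX_ideal h hS p a 1 (by rw [htop]; trivial)
  refine ⟨1 - y, ?_, ?_⟩
  · intro F f hfF
    have hf : f = SMO.levelIncl h 2 F := DFunLike.coe_injective hfF
    have h1 : y.1 f = f := by
      rw [hf, hrel F]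
      rfl
    show ((1 : Module.End ℂ (CuspForm (Gamma0 N) 2)) - y.1) f = 0
    rw [LinearMap.sub_apply, Module.End.one_apply, h1, sub_self]
  · have e : (1 - y) - 1 = -y := by ring
    rw [e]
    exact Submodule.neg_mem _ hy

end Fermat.Agent.MR.Skel

end
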