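import Fermat.Agent.MR.Skel.Interface

/-!
# MR / Skel, task SKEL-MODEL : integral models of the Frey curve (`Stmt_Model`)
-/

set_option autoImplicit false

namespace Fermat.Agent.MR.Skel

theorem Model_disc (P : FreyPackage) : P.freyCurve.Δ =
    ((P.a : ℚ) ^ P.p) ^ 2 * ((P.b : ℚ) ^ P.p) ^ 2 * ((P.c : ℚ) ^ P.p) ^ 2 / 256 := by
  have hF : (P.c : ℚ) ^ P.p = (P.a : ℚ) ^ P.p + (P.b : ℚ) ^ P.p := by
    exact_mod_cast P.hFLT.symm
  rw [hF]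
  simp only [WeierstrassCurve.Δ, WeierstrassCurve.b₂, WeierstrassCurve.b₄, WeierstrassCurve.b₆,
    WeierstrassCurve.b₈, FreyPackage.freyCurve]
  ring

theorem Model_c4 (P : FreyPackage) : P.freyCurve.c₄ =
    ((P.a : ℚ) ^ P.p) ^ 2 + (P.a : ℚ) ^ P.p * (P.b : ℚ) ^ P.p + ((P.b : ℚ) ^ P.p) ^ 2 := by
  simp only [WeierstrassCurve.c₄, WeierstrassCurve.b₂, WeierstrassCurve.b₄, FreyPackage.freyCurve]
  ring

/-- the integral relation between `c₄`, `Δ` of an integral model and of the Frey curve. -/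
theorem Model_rel (P : FreyPackage) (W : WeierstrassCurve ℤ)
    (hW : W.IsIntegralModelOf P.freyCurve) :
    W.c₄ ^ 3 * ((P.a ^ P.p) ^ 2 * (P.b ^ P.p) ^ 2 * (P.c ^ P.p) ^ 2) =
      256 * W.Δ * ((P.a ^ P.p) ^ 2 + P.a ^ P.p * P.b ^ P.p + (P.b ^ P.p) ^ 2) ^ 3 := by
  obtain ⟨C, hC⟩ := hW
  have h1 : ((W.Δ : ℤ) : ℚ) = (C.u⁻¹ : ℚˣ) ^ 12 * P.freyCurve.Δ := by
    have := congrArg WeierstrassCurve.Δ hC
    rw [WeierstrassCurve.variableChange_Δ, WeierstrassCurve.map_Δ] at this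
    exact this.symm
  have h2 : ((W.c₄ : ℤ) : ℚ) = (C.u⁻¹ : ℚˣ) ^ 4 * P.freyCurve.c₄ := by
    have := congrArg WeierstrassCurve.c₄ hC
    rw [WeierstrassCurve.variableChange_c₄, WeierstrassCurve.map_c₄] at this
    exact this.symm
  rw [Model_disc] at h1
  rw [Model_c4] at h2
  have h3 : ((W.c₄ ^ 3 * ((P.a ^ P.p) ^ 2 * (P.b ^ P.p) ^ 2 * (P.c ^ P.p) ^ 2) : ℤ) : ℚ) =
      ((256 * W.Δ * ((P.a ^ P.p) ^ 2 + P.a ^ P.p * P.b ^ P.p + (P.b ^ P.p) ^ 2) ^ 3 : ℤ) : ℚ) := by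
    push_cast
    rw [h1, h2]
    ring
  exact_mod_cast h3

theorem stmt_Model : Stmt_Model := by
  intro P W hW
  have hrel := Model_rel P W hW
  have ha : P.a % 2 = 1 := by
    have h1 : (P.a : ZMod 4) = ((3 : ℤ) : ZMod 4) := by rw [P.ha4]; rfl
    have h2 := (ZMod.intCast_eq_intCast_iff P.a 3 4).1 h1
    unfold Int.ModEq at h2
    omega
  have hb : (2 : ℤ) ∣ P.b := by
    have := (ZMod.intCast_zmod_eq_zero_iff_dvd P.b 2).1 P.hb2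
    exact_mod_cast this
  have hA : (P.a ^ P.p) % 2 = 1 := by
    have : Odd (P.a ^ P.p) := Odd.pow (Int.odd_iff.2 ha)
    exact Int.odd_iff.1 this
  have hk : ¬ (2 : ℤ) ∣ (P.a ^ P.p) ^ 2 + P.a ^ P.p * P.b ^ P.p + (P.b ^ P.p) ^ 2 := by
    have hB : (2 : ℤ) ∣ P.b ^ P.p := dvd_pow hb P.hp0
    obtain ⟨B', hB'⟩ := hB
    have hA2 : Odd ((P.a ^ P.p) ^ 2) := Odd.pow (Int.odd_iff.2 hA)
    intro hd
    rw [hB'] at hd
    have h3 : (2 : ℤ) ∣ (P.a ^ P.p) ^ 2 := by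
      have h4 : (2 : ℤ) ∣ P.a ^ P.p * (2 * B') + (2 * B') ^ 2 := ⟨P.a ^ P.p * B' + 2 * B' ^ 2, by ring⟩
      have h5 := dvd_sub hd h4
      have h6 : (P.a ^ P.p) ^ 2 + P.a ^ P.p * (2 * B') + (2 * B') ^ 2 -
          (P.a ^ P.p * (2 * B') + (2 * B') ^ 2) = (P.a ^ P.p) ^ 2 := by ring
      rwa [h6] at h5
    have h7 := Int.odd_iff.1 hA2
    omega
  have hk0 : (P.a ^ P.p) ^ 2 + P.a ^ P.p * P.b ^ P.p + (P.b ^ P.p) ^ 2 ≠ 0 := by
    intro h0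
    exact hk (h0 ▸ dvd_zero _)
  constructor
  · intro h0
    rw [h0, mul_zero, zero_mul] at hrel
    have h1 : W.c₄ = 0 := by
      rcases mul_eq_zero.1 hrel with h | h
      · exact pow_eq_zero_iff (by norm_num) |>.1 h
      · exfalso
        have := mul_ne_zero (mul_ne_zero (pow_ne_zero 2 (pow_ne_zero P.p P.ha0))
          (pow_ne_zero 2 (pow_ne_zero P.p P.hb0))) (pow_ne_zero 2 (pow_ne_zero P.p P.hc0))
        exact this h
    -- `c₄ (W) = u⁻⁴ c₄ (E)` is not zero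
    obtain ⟨C, hC⟩ := hW
    have h2 := congrArg WeierstrassCurve.c₄ hC
    rw [WeierstrassCurve.variableChange_c₄, WeierstrassCurve.map_c₄, h1, map_zero, Model_c4] at h2
    rcases mul_eq_zero.1 h2 with h | h
    · exact (pow_ne_zero _ (Units.ne_zero _)) h
    · apply hk0
      exact_mod_cast h
  · -- `2 ∣ Δ`
    have hB : (512 : ℤ) ∣ (P.b ^ P.p) ^ 2 := by
      obtain ⟨b', hb'⟩ := hb
      have h5 : 5 ≤ P.p := P.hp5
      obtain ⟨e, he⟩ : ∃ e, P.p = 5 + e := ⟨P.p - 5, by omega⟩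
      rw [hb', he]
      exact ⟨2 * (2 ^ e) ^ 2 * (b' ^ (5 + e)) ^ 2, by rw [mul_pow, pow_add]; ring⟩
    have h1 : (512 : ℤ) ∣ 256 * W.Δ *
        ((P.a ^ P.p) ^ 2 + P.a ^ P.p * P.b ^ P.p + (P.b ^ P.p) ^ 2) ^ 3 := by
      rw [← hrel]
      exact Dvd.dvd.mul_left (Dvd.dvd.mul_right (Dvd.dvd.mul_left hB _) _) _
    have h2 : (2 : ℤ) ∣ W.Δ *
        ((P.a ^ P.p) ^ 2 + P.a ^ P.p * P.b ^ P.p + (P.b ^ P.p) ^ 2) ^ 3 := by
      obtain ⟨t, ht⟩ := h1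
      exact ⟨t, by linarith⟩
    rcases Int.prime_two.dvd_or_dvd h2 with h | h
    · exact h
    · exact absurd (Int.prime_two.dvd_of_dvd_pow h) hk

end Fermat.Agent.MR.Skel

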