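import Fermat.Agent.MR.Skel.NewInterface
import Fermat.Agent.BR.F.UFormal
import Fermat.Agent.BR.F.UAnalytic
import Fermat.Agent.BR.F.UGlue
import Fermat.Agent.ES.Mid.KumFormal
import Fermat.Agent.ES.Mid.KumKer
import Fermat.Agent.ES.Mid.Root
import Fermat.Agent.ES.Mid.RootSeries
import Fermat.Agent.ES.Mid.InvRat

/-!
# MR / Skel : (NEW-C) `n (n u) ~ u` from `tau_p² χ = χ` (`Stmt_NNFun`).
-/

set_option autoImplicit false
set_option synthInstance.maxHeartbeats 400000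

noncomputable section

namespace Fermat.Agent.MR.Skel

open ModularCurve AlgebraicCurve CongruenceSubgroup CuspForm
open Fermat.Agent.S24 (Qbar FF)
open Fermat.Agent.ES.Mid (GQ gal IsDiv formalN Kum IsPE tau)
open Fermat.Agent.ORD.Dep (formalU)

/-- **(NEW-C)** -/
theorem stmt_NNFun : Stmt_NNFun := by
  intro N _ p _ hp hpN u χ hu hK hχ ζ hζ
  have hmem := BR.F.U3.formalU_mem BR.F.U2.ua_char BR.F.U2.ua_mdiff BR.F.U2.ua_rep
    BR.F.U2.ua_growth BR.F.U1.uf_mul N ⟨p, hp⟩ hpN ζ hζ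
  have hkum := BR.F.U3.kum_mkU BR.F.U2.ua_char BR.F.U2.ua_mdiff BR.F.U2.ua_rep BR.F.U2.ua_growth
      BR.F.U1.uf_mul N ⟨p, hp⟩ hpN ζ hζ hmem p
  have h1 := hkum u χ hK
  have h2 := hkum _ _ h1
  rw [hχ] at h2
  have h3 := ES.Mid.kumMul N p _ _ _ _ h2 (ES.Mid.kumInv N p _ _ hK)
  rw [add_neg_cancel] at h3
  obtain ⟨f, hf⟩ := ES.Mid.E.kumKer ES.Mid.ROOT.rootUHP ES.Mid.INV.invRat ES.Mid.RS.rootSeries N p _ h3
  refine ⟨BR.F.U3.mkU hmem u, BR.F.U3.mkU hmem (BR.F.U3.mkU hmem u), f, rfl, rfl, ?_⟩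
  rw [hf, mul_comm, inv_mul_cancel_right₀ hu]

end Fermat.Agent.MR.Skel

end
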