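import Fermat.Agent.MR.Skel.NewInterface

/-!
# MR / Skel : assembly of the block [NEW] (helper52)
-/

set_option autoImplicit false
set_option synthInstance.maxHeartbeats 400000

noncomputable section

namespace Fermat.Agent.MR.Skel

open ModularCurve AlgebraicCurve CongruenceSubgroup CuspForm
open Fermat.Agent.S24 (Qbar FF)
open Fermat.Agent.ES.Mid (GQ gal IsDiv formalN Kum IsPE tau)
open Fermat.Agent.ORD.Dep (formalU)

open WeierstrassCurve WeierstrassCurve.Affine WeierstrassCurve.Affine.Point in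
/-- **[NEW]** from MR/VS and the packages `NEW-*`. -/
theorem stmt_NEW (hEG : VS.Stmt_EigGroup) (hEF : VS.Stmt_EigFun) (hCF : VS.Stmt_CongOfForm)
    (hED : VS.Stmt_EigDict) (hTE : VS.Stmt_TransferEig) (hA1 : Stmt_CongS) (hA2 : Stmt_KillX)
    (hB : Stmt_SqChar) (hC : Stmt_NNFun) (hD : Stmt_ALEig) (hF1 : Stmt_RaiseCG)
    (hF2 : Stmt_RaiseHecke) (hF3 : Stmt_RaiseInj) (hF4 : Stmt_Index) : Stmt_NEW := by
  intro P N' _ _ hcond hirr f W 𝔪 hf hW hmax hp𝔪 hc htop M _ _ hM T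
  subst hM
  have hp : P.p.Prime := P.pp
  have hpabc : (P.p : ℤ) ∣ P.a * P.b * P.c := hcond.p_dvd_abc (Dvd.intro _ rfl)
  have hN'0 : N' ≠ 0 := NeZero.ne N'
  have hpN' : ¬ P.p ∣ N' := by
    rintro ⟨k, rfl⟩
    exact hcond.sq_not_dvd hp ⟨k, by ring⟩
  have hsq : Squarefree N' := hcond.squarefree.squarefree_of_dvd (Dvd.intro_left _ rfl)
  have hpM : ¬ P.p ∣ Nat.lcm N' 4 := by
    intro h
    have h1 : P.p ∣ N' * 4 := h.trans (Nat.lcm_dvd_mul _ _)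
    rcases (Nat.Prime.dvd_mul hp).1 h1 with h2 | h2
    · exact hpN' h2
    · have := Nat.le_of_dvd (by norm_num) h2
      have := P.hp5
      omega
  have : NeZero (P.p * N') := ⟨mul_ne_zero P.hp0 hN'0⟩
  have hpN : P.p ∣ P.p * N' := Dvd.intro _ rfl
  have hp2N : ¬ P.p ^ 2 ∣ P.p * N' := hcond.sq_not_dvd hp
  have hNL : P.p * N' ∣ Nat.lcm N' 4 * P.p := by
    rw [mul_comm]
    exact Nat.mul_dvd_mul_right (Nat.dvd_lcm_left N' 4) P.p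
  obtain ⟨a, ha⟩ : ∃ a : ℕ → ℤ, a = fun ℓ => W.apOfModel ℓ := ⟨_, rfl⟩
  obtain ⟨Good, hGood⟩ : ∃ Good : ℕ → Prop, Good = fun ℓ => W.IsGoodPrimeFor ℓ ∧ ℓ ≠ P.p :=
    ⟨_, rfl⟩
  rw [← ha, ← hGood] at htop
  have hGd : ∀ ℓ, Good ℓ ↔ (W.IsGoodPrimeFor ℓ ∧ ℓ ≠ P.p) := fun ℓ => by rw [hGood]
  -- the Hecke operator `x`
  obtain ⟨S, hS⟩ : ∃ S : Set ℕ, S = {ℓ | ¬ Good ℓ ∨ ℓ ∣ P.p * N'} := ⟨_, rfl⟩
  have hSgood : ∀ ℓ, ℓ ∉ S → Good ℓ := by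
    intro ℓ hℓ
    rw [hS, Set.mem_ofPred_eq, not_or, not_not] at hℓ
    exact hℓ.1
  have hSN : ∀ q : ℕ, q.Prime → q ∣ P.p * N' → q ∈ S := by
    intro q _ hq
    rw [hS]
    exact Or.inr hq
  have hS1 : congIdealS N' P.p a S = ⊤ := by
    refine hA1 N' P.p a Good S ?_ htop
    intro ℓ hℓ hℓN' hg hmem
    rw [hS] at hmem
    rcases hmem with h | h
    · exact h hg
    · rcases (Nat.Prime.dvd_mul hℓ).1 h with h1 | h1
      · exact ((hGd ℓ).1 hg).2 ((Nat.prime_dvd_prime_iff_eq hℓ hp).1 h1)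
      · exact hℓN' h1
  obtain ⟨x, hkill, hx1⟩ := hA2 (P.p * N') N' (Dvd.intro_left _ rfl) P.p a S hSN hS1
  obtain ⟨X⟩ := BR.F.W1.alMat (P.p * N') P.p hp hpN hp2N
  have hXM : X.M = N' := (Nat.eq_of_mul_eq_mul_left hp.pos X.hN).symm
  have hnew : BR.F.NewAt hpN x := by
    refine BR.F.NP.newOfKillP BR.F.NP.wForm BR.F.N2.traceP (P.p * N') P.p hp X hpN S hSN x ?_
    rw [hXM]
    exact hkill
  -- the class group at level `N`
  obtain ⟨hcl, hgal⟩ := hEG (P.p * N') P.p hp a Good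
  have hCG0 : IsCG0 (P.p * N') P.p (VS.EigCl (P.p * N') P.p a Good) :=
    { isDiv := hcl.isDiv
      mul := hcl.mul
      inv := hcl.inv
      pow := hcl.pow
      gal := hgal
      al := fun w hw u hu => hD (P.p * N') P.p hp hpN hp2N a Good w hw u hu
      nn := fun ζ hζ u hu => by
        have hdiv := hcl.isDiv u hu
        obtain ⟨χ, hPE, hK⟩ :=
          ES.Mid.A.kumOfDiv ES.Mid.VAL.valMult ES.Mid.ROOT.rootUHP (P.p * N') P.p u hdiv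
        have heig := (hED (P.p * N') P.p hp a Good u χ hK hPE).1 hu
        have hsq := hB (P.p * N') P.p hp ⟨P.p, hp⟩ hpN a S x hnew hx1 χ hPE
          (fun ℓ hℓN hℓS => heig ℓ hℓN (hSgood _ hℓS))
        exact hC (P.p * N') P.p hp hpN u χ hdiv.1 hK hsq ζ hζ }
  have hCG := hF1 P.p hp (Nat.lcm N' 4) hpM (P.p * N') hNL hpN _ hCG0 T
  have hHecke : ∀ u ∈ raise (P.p * N') (Nat.lcm N' 4 * P.p) P.p (VS.EigCl (P.p * N') P.p a Good),
      ∀ (ℓ : ℕ) [NeZero ℓ], ℓ.Prime → W.IsGoodPrimeFor ℓ → ¬ ℓ ∣ Nat.lcm N' 4 * P.p →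
        HeckeRel (Nat.lcm N' 4 * P.p) P.p ℓ (a ℓ) u := by
    intro u hu ℓ _ hℓ hgood hℓM
    refine hF2 P.p (P.p * N') (Nat.lcm N' 4 * P.p) hNL ℓ hℓ hℓM (a ℓ) _ ?_ u hu
    intro u₀ hu₀
    refine ⟨hu₀.1.1, fun ζ hζ => ?_⟩
    have hℓp : ℓ ≠ P.p := by
      rintro rfl
      exact hℓM (Dvd.intro_left _ rfl)
    obtain ⟨g, hg⟩ := hu₀.2 ℓ hℓ (fun h => hℓM (h.trans hNL)) ((hGd ℓ).2 ⟨hgood, hℓp⟩) ζ hζ
    exact ⟨_, g, hg.symm, rfl⟩
  refine ⟨_, hCG, ?_, ?_, ?_⟩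
  · intro u hu ℓ _ hℓ hgood hℓM
    have := hHecke u hu ℓ hℓ hgood hℓM
    rwa [ha] at this
  · rintro u ⟨u₀, -, g, hg, e⟩
    refine ⟨g⁻¹, inv_ne_zero hg, ?_⟩
    have hg' : (g : LaurentSeries Qbar) ≠ 0 := fun h => hg (Subtype.ext h)
    have e2 : ((u * g⁻¹ ^ P.p : FF (Nat.lcm N' 4 * P.p)) : LaurentSeries Qbar)
        = (u₀ : LaurentSeries Qbar) := by
      rw [IntermediateField.coe_mul, IntermediateField.coe_pow, IntermediateField.coe_inv, e,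
        mul_assoc, ← mul_pow, mul_inv_cancel₀ hg', one_pow, mul_one]
    rw [e2, mul_comm N' P.p]
    exact u₀.2
  · have hsub : raise (P.p * N') (Nat.lcm N' 4 * P.p) P.p (VS.EigCl (P.p * N') P.p a Good) ⊆
        VS.EigCl (Nat.lcm N' 4 * P.p) P.p a Good := by
      intro u hu
      refine ⟨hCG.isDiv u hu, fun ℓ _ hℓ hℓM hg ζ hζ => ?_⟩
      obtain ⟨v, g, hv, e⟩ := hHecke u hu ℓ hℓ ((hGd ℓ).1 hg).1 hℓM ζ hζ
      exact ⟨g, by rw [← hv, e]⟩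
    have hne : ∃ u ∈ raise (P.p * N') (Nat.lcm N' 4 * P.p) P.p (VS.EigCl (P.p * N') P.p a Good),
        ¬ ∃ g : FF (Nat.lcm N' 4 * P.p), u = g ^ P.p := by
      have hcong : congIdeal (P.p * N') P.p a Good ≠ ⊤ := by
        refine hCF (P.p * N') P.p a Good f 𝔪 hf hmax hp𝔪 ?_
        intro ℓ hℓ hℓN hg
        have := hc ℓ hℓ ((hGd ℓ).1 hg).1 hℓN ((hGd ℓ).1 hg).2
        rwa [ha]
      obtain ⟨u₀, hu₀, hnp⟩ := hEF (P.p * N') P.p hp a Good hcong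
      refine ⟨BR.Inst.T7_incl hNL u₀, ⟨u₀, hu₀, 1, one_ne_zero, ?_⟩, ?_⟩
      · rw [BR.Inst.T7_coe_incl, IntermediateField.coe_one, one_pow, mul_one]
      · rintro ⟨g, hg⟩
        apply hnp
        refine hF3 P.p (P.p * N') (Nat.lcm N' 4 * P.p) hp hNL (hF4 P.p N' hp P.hp5 hsq hpN') u₀ g
          hu₀.1.1 ?_
        rw [← BR.Inst.T7_coe_incl hNL u₀, hg, IntermediateField.coe_pow]
    rw [ha, hGood] at hsub hne hCG
    rw [ha, hGood]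
    exact hTE P W hW hpabc hirr (Nat.lcm N' 4 * P.p) _ ⟨hCG.isDiv, hCG.mul, hCG.inv, hCG.pow⟩ hsub
      hne hCG.gal

end Fermat.Agent.MR.Skel

end
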