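import Fermat.Agent.MR.Skel.Interface
import Fermat.Agent.S13.TFinal
import Fermat.Agent.ES.RepGalois

/-!
# MR / Skel : (SKEL-NOSC) inertia cannot act on `E[p]` through the scalar `ω` (helper63)
-/

set_option autoImplicit false

namespace Fermat.Agent.MR.Skel

open Fermat.Agent.ES.RepGalois
open WeierstrassCurve WeierstrassCurve.Affine WeierstrassCurve.Affine.Point

theorem stmt_NoScalar (hOm : EC.Stmt_Omega) : Stmt_NoScalar := by
  intro P A hA hloc hsc
  obtain ⟨T₀, -, hpT, hI, -, -⟩ := hloc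
  have hp := P.pp
  have hp2 : P.p ≠ 2 := by have := P.hp5; omega
  obtain ⟨s, hs, ζ, hζ, hsζ⟩ := hOm P.p hp hp2 A hA
  obtain ⟨c, hc⟩ := exists_isCyc P.p P.hppos s
  have hrho := hsc s hs c (fun ζ h => hc ζ h)
  have : Fact P.p.Prime := ⟨hp⟩
  have hc1 : (c : ZMod P.p) - 1 ≠ 0 := by
    intro h
    apply hsζ
    have h1 : c ≡ 1 [MOD P.p] := by
      rw [← ZMod.natCast_eq_natCast_iff]
      simpa using sub_eq_zero.mp h
    have h2 := (hc.congr h1) ζ hζ
    rwa [pow_one] at h2
  have ht₀ : T₀ ∈ Submodule.torsionBy ℤ (P.freyCurve⁄S13.Qb).Point P.p := by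
    rw [Submodule.mem_torsionBy_iff, Nat.cast_smul_eq_nsmul]
    exact hpT
  let t₀ : S13.Tors P := ⟨T₀, ht₀⟩
  have hsurj : Function.Surjective (fun a : ZMod P.p => a • t₀) := by
    intro x
    have hx : P.p • (x : (P.freyCurve⁄S13.Qb).Point) = 0 := by
      have := x.2
      rwa [Submodule.mem_torsionBy_iff, Nat.cast_smul_eq_nsmul] at this
    obtain ⟨k, hk⟩ := hI s hs x hx
    have h1 : s • x = (c : ZMod P.p) • x := by
      have := LinearMap.congr_fun hrho x
      rwa [EC.rhoE_apply, LinearMap.smul_apply, Module.End.one_apply] at this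
    have h2 : s • x - x = (k : ZMod P.p) • t₀ := by
      rw [Nat.cast_smul_eq_nsmul]
      exact Subtype.ext hk
    have h3 : ((c : ZMod P.p) - 1) • x = (k : ZMod P.p) • t₀ := by
      rw [sub_smul, one_smul, ← h1, h2]
    refine ⟨((c : ZMod P.p) - 1)⁻¹ * k, ?_⟩
    show (((c : ZMod P.p) - 1)⁻¹ * k) • t₀ = x
    rw [mul_smul, ← h3, smul_smul, inv_mul_cancel₀ hc1, one_smul]
  have hle := Nat.card_le_card_of_surjective _ hsurj
  rw [S13.stmt_card_final P, Nat.card_zmod] at hle
  have h5 := P.hp5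
  nlinarith

end Fermat.Agent.MR.Skel
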