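import Fermat.Agent.MR.Skel.NewInterface
import Fermat.Agent.ORD.NM.UMem
import Fermat.Agent.ORD.NM.Bridge

/-!
# MR / Skel : (NEW-F1) raising the level, `IsCG0` at level `N` gives `IsCG` at level `M * p` (helper9)
-/

set_option autoImplicit false
set_option synthInstance.maxHeartbeats 400000

noncomputable section

namespace Fermat.Agent.MR.Skel

open ModularCurve AlgebraicCurve CongruenceSubgroup
open Fermat.Agent.S24 (Qbar FF)
open Fermat.Agent.ES.Mid (GQ gal IsDiv formalN)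
open Fermat.Agent.ORD.Dep (formalU)
open Fermat.Agent.BR.Inst (T7_incl T7_coe_incl T7_incl_gal T7_isDiv T7_incl_al)

theorem RaiseCG_isDiv_pow {L : ℕ} (p : ℕ) {g : FF L} (hg : g ≠ 0) : IsDiv L p (g ^ p) := by
  refine ⟨pow_ne_zero _ hg, fun P => ?_⟩
  rw [← zpow_natCast, Place.ord_zpow]
  exact dvd_mul_right _ _

theorem RaiseCG_mem_iff {N L : ℕ} [NeZero N] [NeZero L] (h : N ∣ L) (p : ℕ) (XX : Set (FF N))
    (u : FF L) : u ∈ raise N L p XX ↔ ∃ u₀ ∈ XX, ∃ g : FF L, g ≠ 0 ∧ u = T7_incl h u₀ * g ^ p := by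
  constructor
  · rintro ⟨u₀, hu₀, g, hg, e⟩
    refine ⟨u₀, hu₀, g, hg, Subtype.ext ?_⟩
    rw [e, ← T7_coe_incl h u₀]
    rfl
  · rintro ⟨u₀, hu₀, g, hg, rfl⟩
    refine ⟨u₀, hu₀, g, hg, ?_⟩
    rw [← T7_coe_incl h u₀]
    rfl

section Setting

variable {p M : ℕ} [NeZero p] (T : Setting p M)

theorem RaiseCG_n_one : T.n 1 = 1 := by
  apply Subtype.ext
  rw [T.coe_n]
  exact (ORD.NM.stmt_UForm p T.ζ T.prim).1

theorem RaiseCG_n_mul (x y : FF (M * p)) : T.n (x * y) = T.n x * T.n y := by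
  apply Subtype.ext
  have h := (ORD.NM.stmt_UForm p T.ζ T.prim).2.1 (x : LaurentSeries Qbar) (y : LaurentSeries Qbar)
  rw [T.coe_n]
  refine Eq.trans h ?_
  rw [← T.coe_n, ← T.coe_n]
  rfl

theorem RaiseCG_n_pow (x : FF (M * p)) (k : ℕ) : T.n (x ^ k) = T.n x ^ k := by
  induction k with
  | zero => rw [pow_zero, pow_zero, RaiseCG_n_one]
  | succ k ih => rw [pow_succ, pow_succ, RaiseCG_n_mul, ih]

theorem RaiseCG_n_incl {N : ℕ} [NeZero N] [NeZero (M * p)] (h : N ∣ M * p) {u v : FF N}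
    (hv : (v : LaurentSeries Qbar) = formalU p T.ζ (u : LaurentSeries Qbar)) :
    T.n (T7_incl h u) = T7_incl h v := by
  apply Subtype.ext
  rw [T.coe_n, T7_coe_incl, T7_coe_incl, hv]

end Setting

theorem stmt_RaiseCG : Stmt_RaiseCG := by
  intro p _ hp M _ hpM N _ hNL hpN XX hX T
  have hp2 : ¬ p ^ 2 ∣ N := by
    intro h
    apply hpM
    have h1 : p * p ∣ M * p := by rw [← sq]; exact h.trans hNL
    exact Nat.dvd_of_mul_dvd_mul_right hp.pos h1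
  -- Atkin-Lehner at the two levels
  have hWF : BR.F.IsAL (M * p) p T.W := ((ORD.NM.stmt_ALPrime M p hp hpM).2 T.W).2 T.isAL
  obtain ⟨X⟩ := BR.F.W3.alExists BR.F.W1.alMat BR.F.W1.alConj BR.F.W2.alAlg N p hp hpN hp2
  have hw : BR.F.IsAL N p X.w := BR.F.W3.al_j BR.F.W2.alAlg N p X
  have hone : (1 : FF N) ∈ XX := by
    have := hX.pow 1 one_ne_zero
    rwa [one_pow] at this
  refine ⟨?_, ?_, ?_, ?_, ?_, ?_, ?_⟩
  · intro u hu
    obtain ⟨u₀, hu₀, g, hg, rfl⟩ := (RaiseCG_mem_iff hNL p XX u).1 hu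
    exact ES.Mid.GLUE.isDiv_mul (T7_isDiv hNL p (hX.isDiv u₀ hu₀)) (RaiseCG_isDiv_pow p hg)
  · intro u hu v hv
    obtain ⟨u₀, hu₀, g, hg, rfl⟩ := (RaiseCG_mem_iff hNL p XX u).1 hu
    obtain ⟨v₀, hv₀, g', hg', rfl⟩ := (RaiseCG_mem_iff hNL p XX v).1 hv
    refine (RaiseCG_mem_iff hNL p XX _).2 ⟨u₀ * v₀, hX.mul u₀ hu₀ v₀ hv₀, g * g',
      mul_ne_zero hg hg', ?_⟩
    rw [map_mul, mul_pow]
    ring
  · intro u hu
    obtain ⟨u₀, hu₀, g, hg, rfl⟩ := (RaiseCG_mem_iff hNL p XX u).1 hu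
    refine (RaiseCG_mem_iff hNL p XX _).2 ⟨u₀⁻¹, hX.inv u₀ hu₀, g⁻¹, inv_ne_zero hg, ?_⟩
    rw [map_inv₀, inv_pow, mul_inv]
  · intro f hf
    refine (RaiseCG_mem_iff hNL p XX _).2 ⟨1, hone, f, hf, ?_⟩
    rw [map_one, one_mul]
  · intro σ u hu
    obtain ⟨u₀, hu₀, g, hg, rfl⟩ := (RaiseCG_mem_iff hNL p XX u).1 hu
    refine (RaiseCG_mem_iff hNL p XX _).2 ⟨gal N σ u₀, hX.gal σ u₀ hu₀, gal (M * p) σ g,
      (map_ne_zero _).2 hg, ?_⟩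
    rw [map_mul, map_pow, T7_incl_gal]
  · intro u hu
    obtain ⟨u₀, hu₀, g, hg, rfl⟩ := (RaiseCG_mem_iff hNL p XX u).1 hu
    refine (RaiseCG_mem_iff hNL p XX _).2 ⟨X.w u₀, hX.al X.w hw u₀ hu₀, T.W g,
      (map_ne_zero _).2 hg, ?_⟩
    rw [map_mul, map_pow, T7_incl_al hNL hp hpN X.w hw T.W hWF]
  · intro u hu
    obtain ⟨u₀, hu₀, g, hg, rfl⟩ := (RaiseCG_mem_iff hNL p XX u).1 hu
    obtain ⟨v, v', g₀, hv, hv', e⟩ := hX.nn T.ζ T.prim u₀ hu₀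
    refine ⟨T7_incl hNL g₀ * T.n (T.n g) * g⁻¹, ?_⟩
    rw [RaiseCG_n_mul, RaiseCG_n_mul, RaiseCG_n_pow, RaiseCG_n_pow, RaiseCG_n_incl T hNL hv,
      RaiseCG_n_incl T hNL hv', e, map_mul, map_pow, mul_pow, mul_pow, inv_pow]
    have hgp : g ^ p ≠ 0 := pow_ne_zero _ hg
    field_simp

end Fermat.Agent.MR.Skel

end
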