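import Fermat.Agent.MR.Skel.NewInterface
import Fermat.Agent.MR.VS.EigGroup

/-!
# MR / Skel : (NEW-F2) raising the level, Hecke relation
-/

set_option autoImplicit false
set_option synthInstance.maxHeartbeats 400000

noncomputable section

namespace Fermat.Agent.MR.Skel

open ModularCurve AlgebraicCurve CongruenceSubgroup CuspForm
open Fermat.Agent.S24 (Qbar FF)
open Fermat.Agent.ES.Mid (GQ gal IsDiv formalN Kum IsPE tau)
open Fermat.Agent.ORD.Dep (formalU)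

/-- the algebra behind (NEW-F2). -/
theorem RaiseHecke_alg {E : Type*} [Field E] {x g y₀ m : E} (a : ℤ) (p : ℕ) (hg : g ≠ 0) :
    x ^ a * y₀ ^ p * m ^ p = (x * g ^ p) ^ a * (y₀ * m / g ^ a) ^ p := by
  have h2 : (g ^ p) ^ a = (g ^ a) ^ p := by
    rw [← zpow_natCast g p, ← zpow_natCast (g ^ a) p, ← zpow_mul, ← zpow_mul, mul_comm]
  have h3 : (g ^ a) ^ p ≠ 0 := pow_ne_zero _ (zpow_ne_zero _ hg)
  rw [mul_zpow, h2, div_pow, mul_pow]
  field_simp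

/-- (NEW-F2) -/
theorem stmt_RaiseHecke : Stmt_RaiseHecke := by
  intro p N L _ _ hNL ℓ _ hℓ hℓL a XX hXX u hu ζ hζ
  obtain ⟨u₀, hu₀, g, hg, hug⟩ := hu
  obtain ⟨-, hrel⟩ := hXX u₀ hu₀
  obtain ⟨v₀, g₀, hv₀, hv₀'⟩ := hrel ζ hζ
  obtain ⟨h1, hm⟩ := ES.Mid.HF1.hf_mul Qbar ℓ ζ hζ
  have huL : u = BR.Inst.T7_incl hNL u₀ * g ^ p := by
    apply Subtype.ext
    rw [hug]
    show _ = ((BR.Inst.T7_incl hNL u₀ : FF L) : LaurentSeries Qbar) * (g : LaurentSeries Qbar) ^ p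
    rw [BR.Inst.T7_coe_incl]
  let ng : FF L := ⟨formalN ℓ ζ (g : LaurentSeries Qbar), VS.EigGroup_mem L hℓ hℓL ζ hζ g⟩
  refine ⟨BR.Inst.T7_incl hNL v₀ * ng ^ p, BR.Inst.T7_incl hNL g₀ * ng / g ^ a, ?_, ?_⟩
  · show ((BR.Inst.T7_incl hNL v₀ : FF L) : LaurentSeries Qbar) *
      (formalN ℓ ζ (g : LaurentSeries Qbar)) ^ p = _
    rw [BR.Inst.T7_coe_incl, hv₀, hug, hm, VS.EigGroup_abs_npow (formalN ℓ ζ) h1 hm]
  · rw [hv₀', map_mul, map_zpow₀, map_pow, huL]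
    exact RaiseHecke_alg a p hg

end Fermat.Agent.MR.Skel

end
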