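import Fermat.Agent.MR.Skel.Interface
import Fermat.Agent.BR.Inst.AL
import Fermat.Agent.BR.Inst.ALProps
import Fermat.Agent.ORD.NM.UMem

/-!
# MR / Skel : SKEL-SET, existence of the operators `W = w_p`, `n = N_p` at level `M * p`
-/

set_option autoImplicit false
set_option synthInstance.maxHeartbeats 400000

noncomputable section

namespace Fermat.Agent.MR.Skel

open ModularCurve
open Fermat.Agent.S24 (Qbar FF)
open Fermat.Agent.ORD.Dep (formalU)

theorem stmt_SettingExists : Stmt_SettingExists := by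
  intro p _ hp M _ hpM
  have hcop : Nat.Coprime M p := ((Nat.Prime.coprime_iff_not_dvd hp).2 hpM).symm
  obtain ⟨W, hW⟩ := BR.Inst.stmt_AL M p hcop
  obtain ⟨hinv, hgal, -⟩ := BR.Inst.stmt_ALProps M p W hW
  obtain ⟨ζ₀, hζ₀⟩ := HasEnoughRootsOfUnity.exists_primitiveRoot Qbar p
  obtain ⟨ζ, rfl⟩ := hζ₀.isUnit (NeZero.ne _)
  have hζ : IsPrimitiveRoot ζ p := IsPrimitiveRoot.coe_units_iff.mp hζ₀
  have hU := ORD.NM.stmt_UMem (M * p) p hp (dvd_mul_left p M) ζ hζ
  choose n hn using hU
  exact ⟨{ W := W
           isAL := hW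
           invol := hinv
           gal_comm := hgal
           ζ := ζ
           prim := hζ
           n := n
           coe_n := fun u => (hn u).1 }⟩

end Fermat.Agent.MR.Skel

end
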