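import Fermat.Agent.MR.Skel.NewInterface
import Fermat.Agent.BR.F.LamBR

/-!
# MR / Skel : (NEW-B) `U_q² = 1` on the eigencharacters mod `p` (`Stmt_SqChar`)   (helper97)
-/

set_option autoImplicit false
set_option synthInstance.maxHeartbeats 400000

namespace Fermat.Agent.MR.Skel

open ModularCurve AlgebraicCurve CongruenceSubgroup CuspForm
open Fermat.Agent.ES.Mid (IsPE tau)
open Fermat.Agent.ES.Coh (H tauH Theta0)

/-- reduction mod `p` of an integral parabolic homomorphism. -/
noncomputable def SqChar_red (N p : ℕ) : H N →+ (Additive (Gamma0 N) →+ ZMod p) where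
  toFun h := (Int.castAddHom (ZMod p)).comp h.1
  map_zero' := by ext; simp
  map_add' h h' := by ext; simp

theorem SqChar_red_apply (N p : ℕ) (h : H N) :
    SqChar_red N p h = (Int.castAddHom (ZMod p)).comp h.1 := rfl

theorem SqChar_nsmul_eq_zero (N p : ℕ) (ψ : Additive (Gamma0 N) →+ ZMod p) : p • ψ = 0 := by
  ext γ
  simp

theorem SqChar_red_nsmul (N p : ℕ) (h : H N) : SqChar_red N p (p • h) = 0 := by
  rw [map_nsmul, SqChar_nsmul_eq_zero]

theorem stmt_SqChar (hL : VS.Stmt_PELift) (hR : VS.Stmt_RedH) : Stmt_SqChar := by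
  intro N _ p _ hp q hqN a S x hx hx1 χ hPE heig
  obtain ⟨h, hh⟩ := hL N p hp χ hPE
  have hh' : SqChar_red N p h = χ := hh
  have hdiv : ∀ y : H N, SqChar_red N p y = 0 → ∃ h' : H N, y = p • h' := fun y hy =>
    (hR N p hp y).2.1 hy
  have htau : ∀ (ℓ : Nat.Primes) (y : H N),
      SqChar_red N p (tauH N ℓ y) = tau N ℓ (ZMod p) (SqChar_red N p y) := fun ℓ y =>
    (hR N p hp y).2.2 ℓ
  -- the claim
  have hclaim : ∀ y ∈ congIdealS N p a S, ∃ h' : H N, Theta0 N S y h = p • h' := by
    intro y hy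
    induction hy using Submodule.span_induction with
    | mem y hy =>
        rcases hy with hy | ⟨ℓ, hℓ, hℓN, hℓS, rfl⟩
        · rw [Set.mem_singleton_iff] at hy
          subst hy
          refine ⟨h, ?_⟩
          rw [map_natCast, Module.End.natCast_apply]
        · apply hdiv
          rw [map_sub, ES.Coh.Theta0_T N S hℓ hℓN hℓS, map_intCast, LinearMap.sub_apply,
            Module.End.intCast_apply, map_sub, htau, map_zsmul, hh',
            heig ⟨ℓ, hℓ⟩ hℓN hℓS, sub_self]
    | zero => exact ⟨0, by simp⟩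
    | add y z _ _ hy hz =>
        obtain ⟨h1, e1⟩ := hy
        obtain ⟨h2, e2⟩ := hz
        exact ⟨h1 + h2, by rw [map_add, LinearMap.add_apply, e1, e2, nsmul_add]⟩
    | smul r y _ hy =>
        obtain ⟨h1, e1⟩ := hy
        exact ⟨Theta0 N S r h1, by
          rw [smul_eq_mul, map_mul, Module.End.mul_apply, e1, map_nsmul]⟩
  obtain ⟨h₁, e₁⟩ := hclaim _ hx1
  have hred : SqChar_red N p (Theta0 N S x h) = χ := by
    have e2 : Theta0 N S x h = h + p • h₁ := by
      rw [← e₁, map_sub, map_one, LinearMap.sub_apply, Module.End.one_apply]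
      abel
    rw [e2, map_add, SqChar_red_nsmul, add_zero, hh']
  have hsq := congrArg (SqChar_red N p) (BR.F.L.tauH_sq_Theta0 q hqN S x hx h)
  rw [htau, htau, hred] at hsq
  exact hsq

end Fermat.Agent.MR.Skel
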