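import Fermat.Agent.MR.VS.All
import Fermat.Agent.MR.Skel.Core
import Fermat.Agent.MR.Skel.New
import Fermat.Agent.MR.Skel.ALEig
import Fermat.Agent.MR.Skel.CongS
import Fermat.Agent.MR.Skel.InWOfRed
import Fermat.Agent.MR.Skel.Index
import Fermat.Agent.MR.Skel.KillX
import Fermat.Agent.MR.Skel.Model
import Fermat.Agent.MR.Skel.NNFun
import Fermat.Agent.MR.Skel.NoScalar
import Fermat.Agent.MR.Skel.RaiseCG
import Fermat.Agent.MR.Skel.RaiseHecke
import Fermat.Agent.MR.Skel.RaiseInj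
import Fermat.Agent.MR.Skel.SettingExists
import Fermat.Agent.MR.Skel.SqChar
import Fermat.Agent.MR.Eis.Avoid
import Fermat.Agent.MR.Eis.Conj
import Fermat.Agent.MR.Eis.Core
import Fermat.Agent.MR.Eis.Ded
import Fermat.Agent.MR.Eis.EtaN
import Fermat.Agent.MR.Eis.Field
import Fermat.Agent.MR.Eis.HeckeOrd
import Fermat.Agent.MR.Eis.NMemK
import Fermat.Agent.MR.Eis.RedN
import Fermat.Agent.MR.Eis.ResF
import Fermat.Agent.MR.Eis.Skel
import Fermat.Agent.MR.Eis.Top
import Fermat.Agent.MR.Lift.All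
import Fermat.Agent.MR.Lift.ChartJ
import Fermat.Agent.MR.Lift.HeckeRed
import Fermat.Agent.MR.Lift.LocPowKf
import Fermat.Agent.MR.Lift.LocPowOfPlaces
import Fermat.Agent.MR.Lift.ResP
import Fermat.Agent.MR.Lift.SkelTop
import Fermat.Agent.ORD.D2.All
import Fermat.Agent.ORD.NM.UMem

/-!
# MR / Skel : the collector.  `MR.Stmt_Core` (hence S44) from the single block [RES].

Every other block ([NEW], [VS], [EC], [EIS], [LIFT], [ORD]) is plugged in unconditionally.
-/

set_option autoImplicit false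

namespace Fermat.Agent.MR.Skel.All

open Fermat.Agent.MR.Skel

/-- **[NEW]**, unconditionally. -/
theorem new : Stmt_NEW :=
  stmt_NEW VS.All.eigGroup VS.All.eigFun VS.All.congOfForm VS.All.eigDict VS.All.transferEig
    stmt_CongS stmt_KillX (stmt_SqChar VS.All.peLift VS.All.redH) stmt_NNFun
    (stmt_ALEig VS.All.eigDict) stmt_RaiseCG stmt_RaiseHecke stmt_RaiseInj stmt_Index

/-- **[EIS]**, unconditionally. -/
theorem eis4 : Eis.Stmt_EIS4 :=
  Eis.stmt_EIS4
    (Eis.stmt_EIS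
      (Eis.stmt_EisCore
        (Eis.stmt_HeckeOrd Eis.stmt_Ded Eis.stmt_Avoid Eis.stmt_Conj
          (Eis.stmt_NMemK Eis.stmt_RedN) Eis.stmt_Field))
      Eis.stmt_RedN Eis.stmt_ResF)
    Eis.stmt_EtaN

theorem eis : Stmt_EIS Eis.IsB := Eis.skel_EIS eis4

/-- **[LIFT]**, unconditionally. -/
theorem lift : Stmt_LIFT :=
  Lift.skel_LIFT Lift.all_LIFTCong Lift.stmt_ResP Lift.stmt_LocPowOfPlaces Lift.stmt_LocPowKf
    Lift.stmt_HeckeRed Lift.stmt_ChartJ

/-- **the core of S44 from [RES]**. -/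
theorem core_of_RES (hRES : Stmt_RES Eis.IsB) : MR.Stmt_Core :=
  core_of Eis.IsB new stmt_SettingExists EC.All.freyLocal EC.All.notEis
    (stmt_NoScalar EC.stmt_Omega) ORD.D2.d2ff ORD.NM.stmt_UForm hRES eis lift stmt_InWOfRed
    stmt_Model

end Fermat.Agent.MR.Skel.All
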