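import Fermat.Agent.MR.Skel.IsB
import Fermat.Agent.ORD.NM.G1
import Fermat.Agent.ES.Mid.HF1
import Fermat.Agent.ES.Mid.HGlueFix
import Fermat.Agent.S28.Toolkit

/-!
# MR / Skel, task SKEL-EISAD (helper92): `Eis.Stmt_EIS4 → Stmt_EIS IsB4`
-/

set_option autoImplicit false
set_option synthInstance.maxHeartbeats 400000

noncomputable section

namespace Fermat.Agent.MR.Skel

open ModularCurve AlgebraicCurve
open Fermat.Agent.S24 (Qbar FF)
open Fermat.Agent.ES.Mid (GQ gal IsDiv formalN)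
open Fermat.Agent.INJ.Inst (kA)
open Fermat.Agent.ORD.Dep (cst rd)
open Fermat.Agent.S28 (Kf)
open Fermat.Agent.CAR.Unit (etaLser lf4 lx1)

/-- the field identity behind the change of normalisation. -/
theorem EISAD_field {L : Type*} [Field L] {C U G : L} (hC : C ≠ 0) (n p : ℕ) (a : ℤ) :
    C ^ n * (U ^ a * G ^ p) = C ^ n * (C ^ a)⁻¹ * (C * U) ^ a * G ^ p := by
  have h : C ^ a ≠ 0 := zpow_ne_zero _ hC
  rw [mul_zpow]
  field_simp

theorem EISAD_formalN_cst (ℓ : ℕ) [NeZero ℓ] (ζ : Qbarˣ) (c : Qbar) :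
    formalN ℓ ζ (cst c) = cst (c ^ (ℓ + 1)) := by
  have e : ∀ d : Qbar, cst d = HahnSeries.C d := by
    intro d
    unfold cst
    rw [ModularCurve.algebraMap_laurentSeries_eq_single, HahnSeries.C_apply]
  rw [e, e]
  exact ES.Mid.HGF.formalN_C ℓ ζ c

theorem EISAD_cst (c : Qbar) (n : ℕ) (a : ℤ) :
    cst (c ^ n * (c ^ a)⁻¹) = cst c ^ n * (cst c ^ a)⁻¹ := by
  unfold cst
  rw [map_mul, map_inv₀, map_zpow₀, map_pow]

theorem EISAD_cst_pow (c : Qbar) (n : ℕ) : cst (c ^ n) = cst c ^ n := by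
  unfold cst
  rw [map_pow]

/-- (SKEL-EISAD) -/
theorem stmt_EisAdapter : Stmt_EisAdapter := by
  intro h p _ hp hp5 A hA M _ _ hpM h4M jb bb hjb ⟨b, hb, hbb⟩ u ub hdiv ⟨hub0, c, hc, hrd⟩
    ⟨δ, hδ⟩ ℓ _ hℓ hℓM a hrel hna x
  by_cases hx : x.ord jb < 0
  · exact (hδ x).2 hx
  have hx' : 0 ≤ x.ord jb := not_lt.1 hx
  obtain ⟨ζ₀, hζ₀⟩ := HasEnoughRootsOfUnity.exists_primitiveRoot Qbar ℓ
  obtain ⟨ζ, rfl⟩ := hζ₀.isUnit (NeZero.ne _)
  have hζ : IsPrimitiveRoot ζ ℓ := IsPrimitiveRoot.coe_units_iff.mp hζ₀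
  obtain ⟨v, g, hv, hvg⟩ := hrel ζ hζ
  obtain ⟨-, hNmul⟩ := ES.Mid.HF1.hf_mul Qbar ℓ ζ hζ
  have hu' : ((algebraMap Qbar (FF (M * p)) c * u : FF (M * p)) : LaurentSeries Qbar)
      = cst c * (u : LaurentSeries Qbar) := by
    rw [IntermediateField.coe_mul, ORD.NM.G1_coe_const]
  have hcst : cst c ≠ 0 := by
    simpa using hc
  have hvs : (v : LaurentSeries Qbar)
      = (u : LaurentSeries Qbar) ^ a * (g : LaurentSeries Qbar) ^ p := by
    rw [hvg, IntermediateField.coe_mul, IntermediateField.coe_pow]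
    congr 1
  have hN : formalN ℓ ζ ((algebraMap Qbar (FF (M * p)) c * u : FF (M * p)) : LaurentSeries Qbar)
      = cst (c ^ (ℓ + 1) * (c ^ a)⁻¹)
        * ((algebraMap Qbar (FF (M * p)) c * u : FF (M * p)) : LaurentSeries Qbar) ^ a
        * (g : LaurentSeries Qbar) ^ p := by
    rw [hu', hNmul, EISAD_formalN_cst, ← hv, hvs, EISAD_cst, EISAD_cst_pow]
    exact EISAD_field hcst _ _ _
  have hna' : ¬ (p : ℤ) ∣ (ℓ : ℤ) + 1 - a := by
    intro hd
    exact hna ((dvd_sub_comm).1 hd)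
  exact h p hp A hA M hpM h4M ℓ hℓ hℓM ζ hζ (algebraMap Qbar (FF (M * p)) c * u) b g _ a δ hN hb
    hna' jb ub bb (hjb.trans S28.jd_one) (by rw [hu']; exact hrd.symm) hub0 hbb
    (fun x hx => (hδ x).1 hx) x hx'

end Fermat.Agent.MR.Skel

end
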