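import Fermat.Agent.MR.Skel.Interface
import Fermat.Agent.MR.Eis.Interface

/-!
# MR / Skel : the Eisenstein element `bb` shared by [RES] and [EIS]

`core_of` is applied with `IsB := IsB4`.  [RES] (helper51) proves `Stmt_RES IsB4`,
[EIS] : `Stmt_EIS IsB4` follows from helper24's `Eis.Stmt_EIS4` (`Stmt_EisAdapter`).
-/

set_option autoImplicit false
set_option synthInstance.maxHeartbeats 400000

noncomputable section

namespace Fermat.Agent.MR.Skel

open Fermat.Agent.S24 (Qbar FF)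
open Fermat.Agent.INJ.Inst (kA)
open Fermat.Agent.ORD.Dep (rd)
open Fermat.Agent.S28 (Kf)
open Fermat.Agent.CAR.Unit (etaLser lf4 lx1)

/-- `bb = rd_∞ (f(q^p) / f(q))`, `f = θ²`. -/
def IsB4 (A : ValuationSubring Qbar) (p M : ℕ) (bb : Kf (kA A) M) : Prop :=
  ∃ b : FF (M * p), (b : LaurentSeries Qbar) = etaLser Qbar 0 (lx1 lf4 p) ∧
    (bb : LaurentSeries (kA A)) = rd A (b : LaurentSeries Qbar)

/-- (SKEL-EISAD) -/
def Stmt_EisAdapter : Prop := Eis.Stmt_EIS4 → Stmt_EIS IsB4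

end Fermat.Agent.MR.Skel

end
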