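import Fermat.Agent.MR.Skel.Interface
import Fermat.Agent.MR.VS.Interface
import Fermat.Agent.BR.F.Final
import Fermat.Agent.BR.Inst.Raise

/-!
# MR / Skel : interface of the block [NEW] (architect helper52), on top of MR/VS (helper90)

Goal: `Stmt_NEW` (`MR/Skel/Interface.lean`).  Level `N = p N'`, `XX₀ = VS.EigCl N p a Good ⊆ F_N`,
`XX = raise N (M * p) p XX₀ ⊆ F_{M p}`.

1. Hecke algebra: `congIdeal N' = ⊤` ⟹ `x ∈ 𝕋^S_N` killing the forms of level `N'`,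
   `x ≡ 1 mod (p, T_ℓ - a ℓ)` (`Stmt_CongS`, `Stmt_KillX`); `BR.F.NP.newOfKillP` : `U_p² x = x`.
2. `tau_p² χ = χ` for the eigencharacters (`Stmt_SqChar`, uses `VS.Stmt_PELift`), hence
   `n (n u) ~ u` (`Stmt_NNFun`); `w_p` preserves the eigenclasses (`Stmt_ALEig`).
3. raising the level `N ∣ M * p` (`Stmt_RaiseCG`, `Stmt_RaiseHecke`, `Stmt_RaiseInj`, `Stmt_Index`).
4. `VS.Stmt_TransferEig` at level `M * p`.
-/

set_option autoImplicit false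
set_option synthInstance.maxHeartbeats 400000

noncomputable section

namespace Fermat.Agent.MR.Skel

open ModularCurve AlgebraicCurve CongruenceSubgroup CuspForm
open Fermat.Agent.S24 (Qbar FF)
open Fermat.Agent.ES.Mid (GQ gal IsDiv formalN Kum IsPE tau)
open Fermat.Agent.ORD.Dep (formalU)

/-! ### 1. Hecke algebras -/

/-- the congruence ideal of the Hecke algebra away from `S`. -/
def congIdealS (N : ℕ) [NeZero N] (p : ℕ) (a : ℕ → ℤ) (S : Set ℕ) : Ideal (heckeAlgebra N 2 S) :=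
  Ideal.span ({(p : heckeAlgebra N 2 S)} ∪
    {x | ∃ (ℓ : ℕ) (hℓ : ℓ.Prime) (hℓN : ¬ ℓ ∣ N) (hℓS : ℓ ∉ S),
      x = heckeAlgebra.T hℓ hℓN hℓS - ((a ℓ : ℤ) : heckeAlgebra N 2 S)})

/-- (NEW-A1) lying over for `𝕋^S ⊆ 𝕋`. -/
def Stmt_CongS : Prop :=
  ∀ (N : ℕ) [NeZero N] (p : ℕ) (a : ℕ → ℤ) (Good : ℕ → Prop) (S : Set ℕ),
    (∀ ℓ : ℕ, ℓ.Prime → ¬ ℓ ∣ N → Good ℓ → ℓ ∉ S) →
    congIdeal N p a Good = ⊤ → congIdealS N p a S = ⊤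

/-- (NEW-A2) restriction `𝕋^S_N → 𝕋^S_{N'}` is onto. -/
def Stmt_KillX : Prop :=
  ∀ (N N' : ℕ) [NeZero N] [NeZero N'], N' ∣ N → ∀ (p : ℕ) (a : ℕ → ℤ) (S : Set ℕ),
    (∀ q : ℕ, q.Prime → q ∣ N → q ∈ S) → congIdealS N' p a S = ⊤ →
    ∃ x : heckeAlgebra N 2 S, BR.F.KillsLevel N' x ∧ x - 1 ∈ congIdealS N p a S

/-! ### 2. `U_p² = 1` and `w_p` on the eigenclasses -/

/-- (NEW-B) -/
def Stmt_SqChar : Prop :=
  ∀ (N : ℕ) [NeZero N] (p : ℕ) [NeZero p], p.Prime → ∀ (q : Nat.Primes) (hqN : (q : ℕ) ∣ N)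
    (a : ℕ → ℤ) (S : Set ℕ) (x : heckeAlgebra N 2 S), BR.F.NewAt hqN x →
    x - 1 ∈ congIdealS N p a S →
    ∀ χ : Additive (Gamma0 N) →+ ZMod p, IsPE χ →
      (∀ ℓ : Nat.Primes, ¬ (ℓ : ℕ) ∣ N → (ℓ : ℕ) ∉ S → tau N ℓ (ZMod p) χ = (a ℓ : ℤ) • χ) →
      tau N q (ZMod p) (tau N q (ZMod p) χ) = χ

/-- (NEW-C) -/
def Stmt_NNFun : Prop :=
  ∀ (N : ℕ) [NeZero N] (p : ℕ) [NeZero p] (hp : p.Prime), p ∣ N →
    ∀ (u : FF N) (χ : Additive (Gamma0 N) →+ ZMod p), u ≠ 0 → Kum N p u χ →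
      tau N ⟨p, hp⟩ (ZMod p) (tau N ⟨p, hp⟩ (ZMod p) χ) = χ →
    ∀ ζ : Qbarˣ, IsPrimitiveRoot ζ p → ∃ v v' g : FF N,
      (v : LaurentSeries Qbar) = formalU p ζ (u : LaurentSeries Qbar) ∧
      (v' : LaurentSeries Qbar) = formalU p ζ (v : LaurentSeries Qbar) ∧ v' = u * g ^ p

/-- (NEW-D) -/
def Stmt_ALEig : Prop :=
  ∀ (N : ℕ) [NeZero N] (p : ℕ) [NeZero p], p.Prime → p ∣ N → ¬ p ^ 2 ∣ N →
    ∀ (a : ℕ → ℤ) (Good : ℕ → Prop) (w : FF N ≃ₐ[Qbar] FF N), BR.F.IsAL N p w →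
    ∀ u ∈ VS.EigCl N p a Good, w u ∈ VS.EigCl N p a Good

/-! ### 3. raising the level -/

/-- the analogue of `IsCG` at level `N`, `p ∥ N`. -/
structure IsCG0 (N p : ℕ) [NeZero p] (XX : Set (FF N)) : Prop where
  isDiv : ∀ u ∈ XX, IsDiv N p u
  mul : ∀ u ∈ XX, ∀ v ∈ XX, u * v ∈ XX
  inv : ∀ u ∈ XX, u⁻¹ ∈ XX
  pow : ∀ f : FF N, f ≠ 0 → f ^ p ∈ XX
  gal : ∀ σ : GQ, ∀ u ∈ XX, gal N σ u ∈ XX
  al : ∀ w : FF N ≃ₐ[Qbar] FF N, BR.F.IsAL N p w → ∀ u ∈ XX, w u ∈ XX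
  nn : ∀ ζ : Qbarˣ, IsPrimitiveRoot ζ p → ∀ u ∈ XX, ∃ v v' g : FF N,
    (v : LaurentSeries Qbar) = formalU p ζ (u : LaurentSeries Qbar) ∧
    (v' : LaurentSeries Qbar) = formalU p ζ (v : LaurentSeries Qbar) ∧ v' = u * g ^ p

/-- the classes of level `L` coming from `XX` at level `N`. -/
def raise (N L p : ℕ) (XX : Set (FF N)) : Set (FF L) :=
  {u | ∃ u₀ ∈ XX, ∃ g : FF L, g ≠ 0 ∧
    (u : LaurentSeries Qbar) = (u₀ : LaurentSeries Qbar) * (g : LaurentSeries Qbar) ^ p}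

/-- (NEW-F1) -/
def Stmt_RaiseCG : Prop :=
  ∀ (p : ℕ) [NeZero p], p.Prime → ∀ (M : ℕ) [NeZero (M * p)], ¬ p ∣ M →
    ∀ (N : ℕ) [NeZero N], N ∣ M * p → p ∣ N → ∀ XX : Set (FF N), IsCG0 N p XX →
    ∀ T : Setting p M, IsCG p M T (raise N (M * p) p XX)

/-- (NEW-F2) -/
def Stmt_RaiseHecke : Prop :=
  ∀ (p N L : ℕ) [NeZero N] [NeZero L], N ∣ L → ∀ (ℓ : ℕ) [NeZero ℓ], ℓ.Prime → ¬ ℓ ∣ L →
    ∀ (a : ℤ) (XX : Set (FF N)), (∀ u ∈ XX, u ≠ 0 ∧ HeckeRel N p ℓ a u) →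
    ∀ u ∈ raise N L p XX, HeckeRel L p ℓ a u

/-- (NEW-F3) classes inject if the degree is prime to `p`. -/
def Stmt_RaiseInj : Prop :=
  ∀ (p N L : ℕ) [NeZero N] [NeZero L], p.Prime → N ∣ L →
    ¬ p ∣ IntermediateField.relfinrank (modularFunctionFieldBar N) (modularFunctionFieldBar L) →
    ∀ (u₀ : FF N) (g : FF L), u₀ ≠ 0 →
      (u₀ : LaurentSeries Qbar) = (g : LaurentSeries Qbar) ^ p → ∃ g₀ : FF N, u₀ = g₀ ^ p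

/-- (NEW-F4) the index is `2` or `6`. -/
def Stmt_Index : Prop :=
  ∀ (p N' : ℕ), p.Prime → 5 ≤ p → Squarefree N' → ¬ p ∣ N' →
    ¬ p ∣ IntermediateField.relfinrank (modularFunctionFieldBar (p * N'))
      (modularFunctionFieldBar (Nat.lcm N' 4 * p))

end Fermat.Agent.MR.Skel

end
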