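import Fermat.Agent.MR.Skel.NewInterface

/-!
# MR / Skel : (NEW-F3) classes inject under raising the level if `p` does not divide the degree
(helper59)
-/

set_option autoImplicit false
set_option synthInstance.maxHeartbeats 400000

noncomputable section

namespace Fermat.Agent.MR.Skel

open ModularCurve AlgebraicCurve
open Fermat.Agent.S24 (Qbar FF)

/-- `g' ^ p = u ^ d`, `gcd (p, d) = 1` : `u` is a `p`-th power. -/
theorem RaiseInj_bezout {F : Type*} [Field F] {p d : ℕ} (h : Nat.Coprime p d) {u g' : F}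
    (hu : u ≠ 0) (hg : g' ^ p = u ^ d) : ∃ g₀ : F, u = g₀ ^ p := by
  have hb : (p : ℤ) * Nat.gcdA p d + (d : ℤ) * Nat.gcdB p d = 1 := by
    have := Nat.gcd_eq_gcd_ab p d
    rw [h] at this
    exact_mod_cast this.symm
  refine ⟨u ^ (Nat.gcdA p d) * g' ^ (Nat.gcdB p d), ?_⟩
  have h1 : (g' ^ (Nat.gcdB p d)) ^ p = u ^ ((d : ℤ) * Nat.gcdB p d) := by
    rw [← zpow_natCast, ← zpow_mul, mul_comm, zpow_mul, zpow_natCast, hg, ← zpow_natCast,
      ← zpow_mul]
  have h2 : (u ^ (Nat.gcdA p d)) ^ p = u ^ ((p : ℤ) * Nat.gcdA p d) := by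
    rw [← zpow_natCast, ← zpow_mul, mul_comm]
  rw [mul_pow, h1, h2, ← zpow_add₀ hu, hb, zpow_one]

theorem stmt_RaiseInj : Stmt_RaiseInj := by
  intro p N L _ _ hp hNL hd u₀ g hu hg
  obtain ⟨g', hg'⟩ := BR.Inst.T7_descent hNL p u₀ g (by
    apply Subtype.ext
    rw [BR.Inst.T7_coe_incl, hg]
    rfl)
  exact RaiseInj_bezout ((Nat.Prime.coprime_iff_not_dvd hp).2 hd) hu hg'

end Fermat.Agent.MR.Skel

end
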